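import Fermat.Agent.GD.Bases.Euler.Shapiro
import Fermat.Agent.GD.Engine.Artin.Perm

/-!
# From a base case to all modules of a finite quotient
-/

set_option autoImplicit false
set_option linter.style.haveILetI false
set_option linter.unusedSectionVars false

noncomputable section

namespace Fermat.Agent.GD

universe w

variable {L : LevelGroup.{0}} {p : ℕ} [hpf : Fact p.Prime]

/-- The first cohomology is finite when it is finite on a level acting trivially. -/
theorem finite_h1_of_level {N : Subgroup L.G} (hN : L.IsLevel N) {M : Type} [AddCommGroup M]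
    [Finite M] [DistribMulAction L.G M] (hMN : ∀ s ∈ N, ∀ m : M, s • m = m)
    [Finite ((L.sub N).H1 M)] : Finite (L.H1 M) := by
  haveI := L.finiteIndex N hN
  haveI : Finite (L.G ⧸ N) := Subgroup.finite_quotient_of_finiteIndex
  let R : L.Z1 M →+ (L.sub N).H1 M :=
    (clsH1 (L.sub N) M).comp (AddMonoidHom.mk' (fun x => ⟨_, res_mem_Z1 (H := N) x.2⟩) fun _ _ => rfl)
  let r : L.H1 M →+ (L.sub N).H1 M := QuotientAddGroup.lift _ R fun x hx => by
    obtain ⟨m, hm⟩ := hx
    exact clsH1_eq_zero.mpr ⟨m, funext fun n => congrFun hm (n : N).1⟩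
  have hzero : ∀ x : L.Z1 M, clsH1 L M x ∈ r.ker → ∀ g : L.G, ∀ s ∈ N, x.1 (g * s) = x.1 g := by
    intro x hx g s hs
    obtain ⟨m, hm⟩ := clsH1_eq_zero.mp (show R x = 0 from hx)
    have h0 : x.1 s = 0 := by
      refine (congrFun hm (show (L.sub N).G from ⟨s, hs⟩)).symm.trans ?_
      show s • m - m = 0
      rw [hMN s hs, sub_self]
    rw [x.2.2, h0, smul_zero, add_zero]
  haveI : Finite r.ker := by
    choose rep hrep using fun z : r.ker => QuotientAddGroup.mk'_surjective _ z.1
    refine Finite.of_injective (fun (z : r.ker) (s : L.G ⧸ N) => (rep z).1 s.out) fun z z' h => ?_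
    refine Subtype.ext ((hrep z).symm.trans (Eq.trans (congrArg _ (Subtype.ext (funext fun g => ?_)))
      (hrep z')))
    obtain ⟨k, hk⟩ := QuotientGroup.mk_out_eq_mul N g
    have h1 := congrFun h (g : L.G ⧸ N)
    simp only [hk] at h1
    rwa [hzero (rep z) (by show clsH1 L M _ ∈ r.ker; rw [show clsH1 L M (rep z) = z.1 from hrep z]; exact z.2) g k k.2,
      hzero (rep z') (by show clsH1 L M _ ∈ r.ker; rw [show clsH1 L M (rep z') = z'.1 from hrep z']; exact z'.2) g k k.2] at h1
  refine Nat.finite_of_card_ne_zero ?_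
  rw [← card_ker_mul_range r]
  exact mul_ne_zero Nat.card_pos.ne' Nat.card_pos.ne'

theorem finite_homC_of_sub {C : Type w} [AddCommGroup C] [DistribMulAction L.G C] (N : Subgroup L.G)
    {M : Type} [AddCommGroup M] [DistribMulAction L.G M] [Finite ((L.sub N).HomC M C)] :
    Finite (L.HomC M C) :=
  Finite.of_injective (fun φ => (⟨φ.1, fun n m => φ.2 _ m⟩ : (L.sub N).HomC M C)) fun φ φ' h =>
    Subtype.ext (congrArg Subtype.val h :)

theorem card_eq_prime_pow_of_module {A : Type*} [AddCommGroup A] [Finite A] [Module (ZMod p) A] :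
    ∃ k, Nat.card A = p ^ k :=
  ⟨_, (Module.natCard_eq_pow_finrank (K := ZMod p) (V := A)).trans (by rw [Nat.card_zmod])⟩

theorem card_eq_prime_pow {A : Type*} [AddCommGroup A] [Finite A] (h : ∀ a : A, p • a = 0) :
    ∃ k, Nat.card A = p ^ k :=
  @card_eq_prime_pow_of_module p _ A _ _ (AddCommGroup.zmodModule h)

/-- The logarithmic defect. -/
def defect (L : LevelGroup.{0}) (C : Type w) [AddCommGroup C] [DistribMulAction L.G C] (p ε : ℕ)
    (M : Type) [AddCommGroup M] [DistribMulAction L.G M] : ℤ :=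
  (padicValNat p (Nat.card (L.H1 M)) : ℤ) - padicValNat p (Nat.card (L.fixed M)) -
    padicValNat p (Nat.card (L.HomC M C)) - (ε : ℤ) * padicValNat p (Nat.card M)

theorem card_pos_fixed (M : Type) [AddCommGroup M] [Finite M] [DistribMulAction L.G M] :
    0 < Nat.card (L.fixed M) := by
  haveI : Nonempty (L.fixed M) := ⟨⟨0, fun g => smul_zero g⟩⟩
  exact Nat.card_pos

/-- The Euler characteristic follows from its case of levels of index prime to `p`. -/
theorem euler_of_base {C : Type w} [AddCommGroup C] [DistribMulAction L.G C]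
    (D : PreClassModule L C p) {N : Subgroup L.G} (hN : L.IsLevel N) (ε : ℕ)
    (hdual : ∀ (M : Type) [AddCommGroup M] [Finite M] [DistribMulAction L.G M],
      (∀ m : M, p • m = 0) → (∀ s ∈ N, ∀ m : M, s • m = m) → ∀ hM : L.Smooth M, D.Duality L M hM)
    (hbase : ∀ (H : Subgroup L.G), N ≤ H → ¬ p ∣ (N.subgroupOf H).index →
      ∀ (M : Type) [AddCommGroup M] [Finite M] [DistribMulAction L.G M],
        (∀ m : M, p • m = 0) → (∀ s ∈ N, ∀ m : M, s • m = m) →
        Finite ((L.sub H).H1 M) ∧ Finite ((L.sub H).HomC M C) ∧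
          Nat.card ((L.sub H).H1 M) = Nat.card ((L.sub H).fixed M) *
            Nat.card ((L.sub H).HomC M C) * Nat.card M ^ (ε * H.index))
    (M : Type) [AddCommGroup M] [Finite M] [inst : DistribMulAction L.G M]
    (hp : ∀ m : M, p • m = 0) (hMN : ∀ s ∈ N, ∀ m : M, s • m = m) :
    Finite (L.H1 M) ∧ Finite (L.HomC M C) ∧
      Nat.card (L.H1 M) = Nat.card (L.fixed M) * Nat.card (L.HomC M C) * Nat.card M ^ ε := by
  classical
  haveI hn : N.Normal := L.normal N hN
  haveI := L.finiteIndex N hN
  haveI : Finite (L.G ⧸ N) := Subgroup.finite_quotient_of_finiteIndex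
  have hNN : ¬ p ∣ (N.subgroupOf N).index := by
    rw [Subgroup.subgroupOf_self, Subgroup.index_top]
    exact fun h => hpf.out.one_lt.ne' (Nat.dvd_one.mp h)
  have hfin : ∀ (A : Type) [AddCommGroup A] [Finite A] [DistribMulAction L.G A],
      (∀ a : A, p • a = 0) → (∀ s ∈ N, ∀ a : A, s • a = a) →
      Finite (L.H1 A) ∧ Finite (L.HomC A C) := by
    intro A _ _ _ hA hAN
    obtain ⟨h1, h2, -⟩ := hbase N le_rfl hNN A hA hAN
    exact ⟨finite_h1_of_level hN hAN, finite_homC_of_sub N⟩
  have hsmooth : ∀ (A : Type) [AddCommGroup A] [DistribMulAction L.G A],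
      (∀ s ∈ N, ∀ a : A, s • a = a) → L.Smooth A :=
    fun A _ _ hAN a => ⟨N, hN, fun s hs => hAN s hs a⟩
  let mk : L.G →* L.G ⧸ N := QuotientGroup.mk' N
  have hmk : ∀ (A : Type) [AddCommGroup A] [DistribMulAction (L.G ⧸ N) A],
      ∀ s ∈ N, ∀ a : A, mk s • a = a := by
    intro A _ _ s hs a
    rw [show mk s = 1 from (QuotientGroup.eq_one_iff s).mpr hs, one_smul]
  let f : ∀ (A : Type) [AddCommGroup A] [Finite A] [DistribMulAction (L.G ⧸ N) A], ℤ :=
    fun A _ _ _ => letI : DistribMulAction L.G A := DistribMulAction.compHom A mk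
      defect L C p ε A
  have hadd : ∀ (A B A' : Type) [AddCommGroup A] [AddCommGroup B] [AddCommGroup A'] [Finite A]
      [Finite B] [Finite A'] [DistribMulAction (L.G ⧸ N) A] [DistribMulAction (L.G ⧸ N) B]
      [DistribMulAction (L.G ⧸ N) A'] (i : A →+ B) (π : B →+ A'),
      Artin.IsExactSeq (G := L.G ⧸ N) i π → (∀ b : B, p • b = 0) → f B = f A + f A' := by
    intro A B A' _ _ _ _ _ _ _ _ _ i π h hB
    letI : DistribMulAction L.G A := DistribMulAction.compHom A mk
    letI : DistribMulAction L.G B := DistribMulAction.compHom B mk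
    letI : DistribMulAction L.G A' := DistribMulAction.compHom A' mk
    have hs : IsShort L i π :=
      ⟨h.inj, h.surj, h.exact, fun g a => h.i_smul (mk g) a, fun g b => h.π_smul (mk g) b⟩
    have hA := hs.killed_left hB
    have hA' := hs.killed_right hB
    obtain ⟨fA, fA2⟩ := hfin A hA (hmk A)
    obtain ⟨fB, fB2⟩ := hfin B hB (hmk B)
    obtain ⟨fA', fA'2⟩ := hfin A' hA' (hmk A')
    have key := D.euler_mul hs hB (hsmooth B (hmk B)) (hsmooth A' (hmk A'))
      (hdual B hB (hmk B) _) (hdual A' hA' (hmk A') _)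
    have hcard : Nat.card B = Nat.card A * Nat.card A' := by
      have h1 := card_ker_mul_range π
      rw [AddMonoidHom.range_eq_top.mpr h.surj, AddSubgroup.card_top] at h1
      rw [← h1]
      congr 1
      rw [← AddMonoidHom.ofInjective h.inj |>.toEquiv |> Nat.card_congr |> Eq.symm]
      exact Nat.card_congr (Equiv.subtypeEquiv (Equiv.refl _) fun b =>
        ⟨fun hb => (h.exact b).mp hb, fun hb => (h.exact b).mpr hb⟩)
    have pA := (card_pos_fixed (L := L) A).ne'
    have pB := (card_pos_fixed (L := L) B).ne'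
    have pA' := (card_pos_fixed (L := L) A').ne'
    have hA0 : Nat.card (L.H1 A) ≠ 0 := Nat.card_pos.ne'
    have hB0 : Nat.card (L.H1 B) ≠ 0 := Nat.card_pos.ne'
    have hA'0 : Nat.card (L.H1 A') ≠ 0 := Nat.card_pos.ne'
    have cA : Nat.card (L.HomC A C) ≠ 0 := Nat.card_pos.ne'
    have cB : Nat.card (L.HomC B C) ≠ 0 := Nat.card_pos.ne'
    have cA' : Nat.card (L.HomC A' C) ≠ 0 := Nat.card_pos.ne'
    have key' := congrArg (fun n => (padicValNat p n : ℤ)) key
    have hcard' := congrArg (fun n => (padicValNat p n : ℤ)) hcard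
    simp only [padicValNat.mul hB0 (mul_ne_zero pA cA), padicValNat.mul pA cA,
      padicValNat.mul (mul_ne_zero hB0 (mul_ne_zero pA cA)) (mul_ne_zero pA' cA'),
      padicValNat.mul pA' cA', padicValNat.mul hA0 hA'0, padicValNat.mul pB cB,
      padicValNat.mul (mul_ne_zero hA0 hA'0) (mul_ne_zero pB cB), Nat.cast_add] at key'
    simp only [padicValNat.mul (Nat.card_pos (α := A)).ne' (Nat.card_pos (α := A')).ne',
      Nat.cast_add] at hcard'
    show defect L C p ε B = defect L C p ε A + defect L C p ε A'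
    unfold defect
    linear_combination key' - (ε : ℤ) * hcard'
  have hperm : ∀ (H : Subgroup (L.G ⧸ N)) (A : Type) [AddCommGroup A] [Finite A]
      [DistribMulAction (L.G ⧸ N) A], (∀ a : A, p • a = 0) → ¬ p ∣ Nat.card H →
      f (Artin.PermMod H A) = 0 := by
    intro H A _ _ _ hA hH
    letI : DistribMulAction L.G A := DistribMulAction.compHom A mk
    letI : DistribMulAction L.G (Artin.PermMod H A) := DistribMulAction.compHom _ mk
    letI : MulAction L.G ((L.G ⧸ N) ⧸ H) := MulAction.compHom _ mk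
    set Hg : Subgroup L.G := H.comap mk with hHg
    have hle : N ≤ Hg := fun s hs => by
      show mk s ∈ H
      rw [show mk s = 1 from (QuotientGroup.eq_one_iff s).mpr hs]
      exact H.one_mem
    have hidx : ¬ p ∣ (N.subgroupOf Hg).index := by
      let φ : Hg →* H := (mk.comp Hg.subtype).codRestrict H fun x => x.2
      have hφ : N.subgroupOf Hg = φ.ker := by
        ext x
        rw [Subgroup.mem_subgroupOf, MonoidHom.mem_ker]
        exact (QuotientGroup.eq_one_iff (x : L.G)).symm.trans
          ⟨fun h => Subtype.ext h, fun h => congrArg Subtype.val h⟩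
      have hsur : Function.Surjective φ := fun y => by
        obtain ⟨g, hg⟩ := QuotientGroup.mk'_surjective N y.1
        refine ⟨⟨g, ?_⟩, Subtype.ext hg⟩
        show mk g ∈ H
        rw [show mk g = y.1 from hg]
        exact y.2
      rw [hφ, Subgroup.index_ker, MonoidHom.range_eq_top.mpr hsur, Subgroup.card_top]
      exact hH
    have hi : IsInd (QuotientGroup.mk (1 : L.G ⧸ N) : (L.G ⧸ N) ⧸ H) Hg (Artin.PermMod H A) A
        (AddEquiv.refl _) := by
      refine ⟨fun g => ?_, fun x => ?_, fun g φ x => ?_⟩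
      · show mk g ∈ H ↔ mk g • (QuotientGroup.mk (1 : L.G ⧸ N) : (L.G ⧸ N) ⧸ H) = QuotientGroup.mk 1
        rw [MulAction.Quotient.smul_mk, smul_eq_mul, mul_one, eq_comm, QuotientGroup.eq, inv_one,
          one_mul]
      · obtain ⟨y, rfl⟩ := QuotientGroup.mk_surjective x
        obtain ⟨g, rfl⟩ := QuotientGroup.mk'_surjective N y
        refine ⟨g, ?_⟩
        show mk g • (QuotientGroup.mk (1 : L.G ⧸ N) : (L.G ⧸ N) ⧸ H) = _
        rw [MulAction.Quotient.smul_mk, smul_eq_mul, mul_one]
      · show mk g • φ ((mk g)⁻¹ • x) = mk g • φ (mk g⁻¹ • x)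
        rw [map_inv]
    have ho : L.IsOpen Hg := ⟨N, hN, hle⟩
    obtain ⟨b1, b2, b3⟩ := hbase Hg hle hidx A hA (hmk A)
    obtain ⟨e1⟩ := hi.h1_equiv ho
    obtain ⟨e2⟩ := hi.homC_equiv C
    show defect L C p ε (Artin.PermMod H A) = 0
    unfold defect
    rw [Nat.card_congr e1, Nat.card_congr hi.fixedEquiv, Nat.card_congr e2, hi.card_eq,
      hi.card_point, b3, padicValNat.mul, padicValNat.mul (card_pos_fixed (L := L.sub Hg) A).ne'
        Nat.card_pos.ne', padicValNat.pow, padicValNat.pow]
    · push_cast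
      ring
    all_goals first
      | exact Nat.card_pos.ne'
      | exact mul_ne_zero (card_pos_fixed (L := L.sub Hg) A).ne' Nat.card_pos.ne'
      | exact pow_ne_zero _ Nat.card_pos.ne'
  letI actQ : DistribMulAction (L.G ⧸ N) M :=
    { smul := fun q m => Quotient.liftOn' q (fun g => g • m) fun a b hab => by
        have h1 := hMN _ (QuotientGroup.leftRel_apply.mp hab) m
        rw [mul_smul, inv_smul_eq_iff] at h1
        exact h1.symm
      one_smul := fun m => one_smul L.G m
      mul_smul := by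
        rintro ⟨a⟩ ⟨b⟩ m
        exact mul_smul a b m
      smul_zero := by
        rintro ⟨a⟩
        exact smul_zero a
      smul_add := by
        rintro ⟨a⟩ m m'
        exact smul_add a m m' }
  have h0 : defect L C p ε M = 0 :=
    Artin.additive_eq_zero_perm (p := p) (fun A _ _ _ => f A) hadd hperm M hp
  obtain ⟨f1, f2⟩ := hfin M hp hMN
  refine ⟨f1, f2, ?_⟩
  obtain ⟨a, ha⟩ := card_eq_prime_pow (p := p) (LevelGroup.nsmul_h1 (L := L) hp)
  obtain ⟨b, hb⟩ := card_eq_prime_pow (p := p) (A := fixedSub L M) fun x => Subtype.ext (hp x.1)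
  obtain ⟨c, hc⟩ := card_eq_prime_pow (p := p) (A := L.HomC M C) fun φ =>
    Subtype.ext (AddMonoidHom.ext fun m => by
      show p • φ.1 m = 0
      rw [← map_nsmul, hp, map_zero])
  obtain ⟨d, hd⟩ := card_eq_prime_pow (p := p) hp
  have hb' : Nat.card (L.fixed M) = p ^ b := hb
  simp only [defect, ha, hb', hc, hd, padicValNat.prime_pow] at h0
  rw [ha, hb', hc, hd, ← pow_mul, ← pow_add, ← pow_add]
  congr 1
  have : (a : ℤ) = ((b + c + d * ε : ℕ) : ℤ) := by
    push_cast
    linear_combination h0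
  exact_mod_cast this

end Fermat.Agent.GD
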