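import Fermat.Agent.GD.Local.EquivHom
import Fermat.Agent.GD.Setting

/-!
# The dual of a module killed by `p` under a group acting through order prime to `p`
-/

set_option autoImplicit false
set_option linter.style.haveILetI false
set_option linter.unusedSectionVars false

noncomputable section

namespace Fermat.Agent.GD

local notation "ℚb" => AlgebraicClosure ℚ
local notation "Cu" => Additive (AlgebraicClosure ℚ)ˣ

/-- Homomorphisms into the algebraic numbers. -/
def CoDual (M : Type) [AddCommGroup M] : Type := M →+ Cu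

namespace CoDual

variable {M : Type} [AddCommGroup M]

instance : AddCommGroup (CoDual M) := inferInstanceAs (AddCommGroup (M →+ Cu))

/-- As a homomorphism. -/
def hom (f : CoDual M) : M →+ Cu := f

theorem hom_ext {f f' : CoDual M} (h : ∀ m, f.hom m = f'.hom m) : f = f' :=
  AddMonoidHom.ext (f := f.hom) (g := f'.hom) h

section Action

variable {G : Type} [Group G] [DistribMulAction G M] [MulDistribMulAction G ℚbˣ]

instance action : DistribMulAction G (CoDual M) where
  smul g f := ((DistribSMul.toAddMonoidHom Cu g).comp f.hom).comp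
    (DistribSMul.toAddMonoidHom M g⁻¹)
  one_smul f := hom_ext fun m => by
    show (1 : G) • f.hom ((1 : G)⁻¹ • m) = f.hom m
    rw [inv_one, one_smul, one_smul]
  mul_smul g g' f := hom_ext fun m => by
    show (g * g') • f.hom ((g * g')⁻¹ • m) = g • g' • f.hom (g'⁻¹ • g⁻¹ • m)
    rw [mul_inv_rev, mul_smul, mul_smul]
  smul_zero g := hom_ext fun m => smul_zero g
  smul_add g f f' := hom_ext fun m => smul_add g _ _

theorem smul_apply (g : G) (f : CoDual M) (m : M) : (g • f).hom m = g • f.hom (g⁻¹ • m) := rfl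

end Action

variable {p : ℕ} [hpf : Fact p.Prime]

theorem exists_muEquiv : ∃ _ : ZMod p ≃+ (nsmulAddMonoidHom p : Cu →+ Cu).ker,
    Nat.card (nsmulAddMonoidHom p : Cu →+ Cu).ker = p := by
  haveI : NeZero p := ⟨hpf.out.ne_zero⟩
  obtain ⟨ζ, hζ⟩ := HasEnoughRootsOfUnity.exists_primitiveRoot ℚb p
  have hc : Nat.card (nsmulAddMonoidHom p : Cu →+ Cu).ker = p := by
    refine Eq.trans (Nat.card_congr ⟨fun x => (⟨(x : Cu).toMul, ?_⟩ : rootsOfUnity p ℚb),
      fun z => ⟨Additive.ofMul (z : ℚbˣ), ?_⟩, fun _ => rfl, fun _ => rfl⟩) hζ.card_rootsOfUnity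
    · rw [mem_rootsOfUnity, ← toMul_nsmul, show p • (x : Cu) = 0 from x.2]; rfl
    · show p • Additive.ofMul (z : ℚbˣ) = 0
      rw [← ofMul_pow, (mem_rootsOfUnity p _).mp z.2]; rfl
  haveI : IsAddCyclic (nsmulAddMonoidHom p : Cu →+ Cu).ker := isAddCyclic_of_prime_card hc
  exact ⟨(ZMod.ringEquivCongr hc).symm.toAddEquiv.trans (zmodAddCyclicAddEquiv inferInstance), hc⟩

theorem killed (hM : ∀ m : M, p • m = 0) (f : CoDual M) : p • f = 0 :=
  hom_ext fun m => by
    show p • f.hom m = 0
    rw [← map_nsmul, hM, map_zero]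

theorem toMu_mem (hM : ∀ m : M, p • m = 0) (f : CoDual M) (m : M) :
    f.hom m ∈ (nsmulAddMonoidHom p : Cu →+ Cu).ker := by
  show p • f.hom m = 0
  rw [← map_nsmul, hM, map_zero]

theorem finite [Finite M] (hM : ∀ m : M, p • m = 0) : Finite (CoDual M) := by
  haveI : Finite (nsmulAddMonoidHom p : Cu →+ Cu).ker := by
    obtain ⟨-, hc⟩ := exists_muEquiv (p := p)
    exact Nat.finite_of_card_ne_zero (by rw [hc]; exact hpf.out.ne_zero)
  exact Finite.of_injective
    (fun (f : CoDual M) (m : M) => (⟨f.hom m, toMu_mem hM f m⟩ : (nsmulAddMonoidHom p : Cu →+ Cu).ker))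
    fun f f' h => hom_ext fun m => congrArg Subtype.val (congrFun h m)

theorem card [Finite M] (hM : ∀ m : M, p • m = 0) : Nat.card (CoDual M) = Nat.card M := by
  obtain ⟨-, hc⟩ := exists_muEquiv (p := p)
  haveI : Finite (nsmulAddMonoidHom p : Cu →+ Cu).ker :=
    Nat.finite_of_card_ne_zero (by rw [hc]; exact hpf.out.ne_zero)
  have h := card_addHom_fin (p := p) (M := M) hM
    (V := (nsmulAddMonoidHom p : Cu →+ Cu).ker) (fun v => Subtype.ext v.2) (d := 1)
    (by rw [hc, pow_one])
  rw [pow_one] at h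
  rw [← h]
  exact Nat.card_congr ⟨fun f => f.hom.codRestrict _ (toMu_mem hM f),
    fun φ => (nsmulAddMonoidHom p : Cu →+ Cu).ker.subtype.comp φ, fun _ => rfl, fun _ => rfl⟩

theorem eq_zero_of_apply (hM : ∀ m : M, p • m = 0) {m : M} (h : ∀ f : CoDual M, f.hom m = 0) :
    m = 0 := by
  letI : Module (ZMod p) M := AddCommGroup.zmodModule hM
  let b := Module.Basis.ofVectorSpace (ZMod p) M
  obtain ⟨e, -⟩ := exists_muEquiv (p := p)
  refine b.ext_elem fun i => ?_
  rw [LinearEquiv.map_zero, Finsupp.zero_apply]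
  exact e.map_eq_zero_iff.mp (Subtype.ext (h (((nsmulAddMonoidHom p : Cu →+ Cu).ker.subtype.comp
    e.toAddMonoidHom).comp (b.coord i).toAddMonoidHom : M →+ Cu)))

/-- Evaluation at a point. -/
def eval (m : M) : CoDual (CoDual M) :=
  AddMonoidHom.mk' (fun f => f.hom m) fun _ _ => rfl

theorem eval_apply (m : M) (f : CoDual M) : (eval m).hom f = f.hom m := rfl

theorem eval_bijective [Finite M] (hM : ∀ m : M, p • m = 0) :
    Function.Bijective (eval : M → CoDual (CoDual M)) := by
  haveI := finite hM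
  haveI := finite (p := p) (M := CoDual M) (killed hM)
  have hinj : Function.Injective (eval : M → CoDual (CoDual M)) := fun m m' h => by
    refine sub_eq_zero.mp (eq_zero_of_apply hM fun f => ?_)
    rw [map_sub, sub_eq_zero]
    exact congrArg (fun z : CoDual (CoDual M) => z.hom f) h
  refine (Nat.bijective_iff_injective_and_card _).mpr ⟨hinj, ?_⟩
  rw [card (killed hM), card hM]

section Invariants

variable {G : Type} [Group G] [DistribMulAction G M] [MulDistribMulAction G ℚbˣ]
variable {H N : Subgroup G}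

/-- The fixed points are the equivariant maps from the dual. -/
theorem card_fixed_eq [Finite M] (hM : ∀ m : M, p • m = 0) :
    Nat.card {m : M // ∀ h ∈ H, h • m = m} =
      Nat.card {φ : CoDual M →+ Cu // ∀ h ∈ H, ∀ f, φ (h • f) = h • φ f} := by
  have hiff : ∀ m : M, (∀ h ∈ H, h • m = m) ↔
      ∀ h ∈ H, ∀ f : CoDual M, (eval m).hom (h • f) = h • (eval m).hom f := by
    intro m
    constructor
    · intro hm h hh f
      rw [eval_apply, eval_apply, smul_apply, hm _ (H.inv_mem hh)]
    · intro hm h hh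
      refine sub_eq_zero.mp (eq_zero_of_apply hM fun f => ?_)
      have h1 := hm _ (H.inv_mem hh) f
      rw [eval_apply, eval_apply, smul_apply, inv_inv] at h1
      rw [map_sub, (MulAction.injective h⁻¹) h1, sub_self]
  exact Nat.card_congr ((Equiv.ofBijective _ (eval_bijective hM)).subtypeEquiv hiff)

theorem fixesMu_smul (hM : ∀ m : M, p • m = 0) (hμ : ∀ μ : ℚbˣ, μ ^ p = 1 → ∀ s ∈ N, s • μ = μ)
    (hN : ∀ s ∈ N, ∀ m : M, s • m = m) : ∀ s ∈ N, ∀ f : CoDual M, s • f = f := by
  intro s hs f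
  refine hom_ext fun m => ?_
  rw [smul_apply, hN _ (N.inv_mem hs)]
  refine Additive.toMul.injective (hμ _ ?_ s hs)
  rw [← toMul_nsmul, ← map_nsmul, hM, map_zero]; rfl

end Invariants

end CoDual

/-- Averaging: as many invariant functionals as fixed points. -/
theorem card_invFunctionals {p : ℕ} [hpf : Fact p.Prime] {G : Type} [Group G] {H N : Subgroup G}
    {V : Type} [AddCommGroup V] [Finite V] [DistribMulAction G V] (hA : CoprimeAct p H N V) :
    Nat.card {φ : V →+ ZMod p // ∀ h ∈ H, ∀ v, φ (h • v) = φ v} =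
      Nat.card {v : V // ∀ h ∈ H, h • v = v} := by
  classical
  haveI := hA.finiteIndex
  haveI := hA.normal
  letI : Fintype (H ⧸ N.subgroupOf H) := Fintype.ofFinite _
  haveI : NeZero p := ⟨hpf.out.ne_zero⟩
  set i := (N.subgroupOf H).index
  obtain ⟨j, -, hj⟩ := Nat.exists_mul_mod_eq_one_of_coprime
    ((Nat.Prime.coprime_iff_not_dvd hpf.out).mpr hA.coprime).symm hpf.out.one_lt
  have hji : ∀ {W : Type} [AddCommGroup W], (∀ w : W, p • w = 0) → ∀ w : W, j • i • w = w := by
    intro W _ hW w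
    rw [smul_smul, mul_comm]
    conv_lhs => rw [← Nat.mod_add_div (i * j) p, hj]
    rw [add_smul, one_smul, mul_smul, hW, add_zero]
  let V0 : AddSubgroup V :=
    { carrier := {v | ∀ h ∈ H, h • v = v}
      zero_mem' := fun h _ => smul_zero h
      add_mem' := fun ha hb h hh => by rw [smul_add, ha h hh, hb h hh]
      neg_mem' := fun ha h hh => by rw [smul_neg, ha h hh] }
  have hout : ∀ (g : H) (c : H ⧸ N.subgroupOf H) (v : V),
      (((g • c).out : H) : G) • v = (g : G) • ((c.out : H) : G) • v := by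
    intro g c v
    obtain ⟨k, hk⟩ := QuotientGroup.mk_out_eq_mul (N.subgroupOf H) (g * c.out)
    have hc : g • c = ((g * c.out : H) : H ⧸ N.subgroupOf H) := by
      conv_lhs => rw [← QuotientGroup.out_eq' c]
      rfl
    rw [hc, hk, Subgroup.coe_mul, Subgroup.coe_mul, mul_smul, mul_smul,
      hA.trivial _ (Subgroup.mem_subgroupOf.mp k.2)]
  let e : V →+ V0 := AddMonoidHom.mk'
    (fun v => ⟨j • ∑ c : H ⧸ N.subgroupOf H, ((c.out : H) : G) • v, fun h hh => by
      rw [smul_comm, Finset.smul_sum]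
      refine congrArg (j • ·) ((Finset.sum_congr rfl fun c _ => (hout ⟨h, hh⟩ c v).symm).trans ?_)
      exact Equiv.sum_comp (MulAction.toPerm (⟨h, hh⟩ : H))
        fun c : H ⧸ N.subgroupOf H => ((c.out : H) : G) • v⟩)
    fun v w => Subtype.ext (by
      show j • ∑ c, _ = j • ∑ c, _ + j • ∑ c, _
      simp only [smul_add, Finset.sum_add_distrib])
  have he0 : ∀ v : V0, e v = v := fun v => Subtype.ext (by
    show j • ∑ c : H ⧸ N.subgroupOf H, ((c.out : H) : G) • (v : V) = v
    rw [Finset.sum_congr rfl fun c _ => v.2 _ c.out.2, Finset.sum_const, Finset.card_univ,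
      ← Nat.card_eq_fintype_card, ← Subgroup.index_eq_card, hji hA.killed])
  have heh : ∀ h ∈ H, ∀ v, e (h • v) = e v := fun h hh v => Subtype.ext (by
    show j • ∑ c : H ⧸ N.subgroupOf H, ((c.out : H) : G) • h • v = j • ∑ c : H ⧸ N.subgroupOf H, _
    congr 1
    let σ : H ⧸ N.subgroupOf H ≃ H ⧸ N.subgroupOf H := Equiv.mulRight (QuotientGroup.mk ⟨h, hh⟩)
    refine Eq.trans (Finset.sum_congr rfl fun c _ => ?_)
      (Equiv.sum_comp σ fun c : H ⧸ N.subgroupOf H => ((c.out : H) : G) • v)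
    obtain ⟨k, hk⟩ := QuotientGroup.mk_out_eq_mul (N.subgroupOf H) (c.out * ⟨h, hh⟩)
    have hc : σ c = ((c.out * ⟨h, hh⟩ : H) : H ⧸ N.subgroupOf H) := by
      rw [QuotientGroup.mk_mul, QuotientGroup.out_eq']
      rfl
    rw [hc, hk, Subgroup.coe_mul, Subgroup.coe_mul, mul_smul, mul_smul,
      hA.trivial _ (Subgroup.mem_subgroupOf.mp k.2)])
  have hinv : ∀ φ : {φ : V →+ ZMod p // ∀ h ∈ H, ∀ v, φ (h • v) = φ v}, ∀ v,
      φ.1 (e v : V) = φ.1 v := fun φ v => by
    show φ.1 (j • ∑ c : H ⧸ N.subgroupOf H, ((c.out : H) : G) • v) = φ.1 v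
    rw [map_nsmul, map_sum, Finset.sum_congr rfl fun c _ => φ.2 _ c.out.2 v, Finset.sum_const,
      Finset.card_univ, ← Nat.card_eq_fintype_card, ← Subgroup.index_eq_card,
      hji fun w => by rw [nsmul_eq_mul, ZMod.natCast_self, zero_mul]]
  rw [Nat.card_congr (⟨fun φ => φ.1.comp V0.subtype,
    fun ψ => ⟨ψ.comp e, fun h hh v => congrArg ψ (heh h hh v)⟩,
    fun φ => Subtype.ext (AddMonoidHom.ext (hinv φ)),
    fun ψ => AddMonoidHom.ext fun v => congrArg ψ (he0 v)⟩ :
    {φ : V →+ ZMod p // ∀ h ∈ H, ∀ v, φ (h • v) = φ v} ≃ (V0 →+ ZMod p))]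
  rw [card_addHom_fin (p := p) (fun v : V0 => Subtype.ext (hA.killed v))
    (fun w : ZMod p => by rw [nsmul_eq_mul, ZMod.natCast_self, zero_mul]) (d := 1)
    (by rw [Nat.card_zmod, pow_one]), pow_one]
  rfl

end Fermat.Agent.GD
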