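import Fermat.Agent.GD.Bases.Euler.ClassesModP
import Fermat.Agent.GD.Bases.Euler.Dual

/-!
# Equivariant maps into classes from local ones at a level of index prime to `p`
-/

set_option autoImplicit false
set_option linter.style.haveILetI false
set_option linter.unusedSectionVars false

noncomputable section

namespace Fermat.Agent.GD

open Fermat.Agent.Galois (GQ)

local notation "ℚb" => AlgebraicClosure ℚ
local notation "Cu" => Additive (AlgebraicClosure ℚ)ˣ

variable {p : ℕ} [hpf : Fact p.Prime] {T : Finset Nat.Primes}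

/-- A subgroup of automorphisms as a subgroup of the group of `T`. -/
abbrev asLT (T : Finset Nat.Primes) (H : Subgroup GQ) : Subgroup (LT T).G := H

variable (p T) in
/-- Ideles killed by `p`, fixed by a subgroup and concentrated over `T`. -/
def torsionIdeles (N : Subgroup GQ) : AddSubgroup (Additive (idele T)) where
  carrier := {f | (∀ v g, ∀ s ∈ N, evalAt v (g * s) f = evalAt v g f) ∧ p • f = 0 ∧
    ∀ v ∉ placesOf T, ∀ g, evalAt v g f = 0}
  zero_mem' := ⟨fun _ _ _ _ => rfl, smul_zero p, fun _ _ _ => rfl⟩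
  add_mem' := fun {a b} ha hb => ⟨fun v g s hs => by rw [map_add, map_add, ha.1 v g s hs, hb.1 v g s hs],
    by rw [nsmul_add, ha.2.1, hb.2.1, add_zero],
    fun v hv g => by rw [map_add, ha.2.2 v hv g, hb.2.2 v hv g, add_zero]⟩
  neg_mem' := fun {a} ha => ⟨fun v g s hs => by rw [map_neg, map_neg, ha.1 v g s hs],
    by rw [neg_nsmul, ha.2.1, neg_zero], fun v hv g => by rw [map_neg, ha.2.2 v hv g, neg_zero]⟩

theorem smul_torsionIdeles {N : Subgroup GQ} [hn : N.Normal] (h : GQ) {f : Additive (idele T)}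
    (hf : f ∈ torsionIdeles p T N) : lt T h • f ∈ torsionIdeles p T N := by
  refine ⟨fun v g s hs => ?_, by rw [smul_comm p (lt T h) f, hf.2.1, smul_zero], fun v hv g => ?_⟩
  · rw [evalAt_lt, evalAt_lt, show g * s * h = g * h * (h⁻¹ * s * h⁻¹⁻¹) by group]
    exact hf.1 v _ _ (hn.conj_mem s hs h⁻¹)
  · rw [evalAt_lt]
    exact hf.2.2 v hv _

/-- A fixed class killed by `p` is the class of a torsion idele. -/
theorem exists_torsion_lift_class (hp2 : p ≠ 2) (hT : (⟨p, Fact.out⟩ : Nat.Primes) ∈ T) {N : Subgroup GQ}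
    (hN : (LT T).IsLevel N) (hμ : FixesMu p N) (hbig : IsBig T N) {c : ClassT T}
    (hc : ∀ s ∈ N, lt T s • c = c) (hpc : p • c = 0) :
    ∃ z ∈ torsionIdeles p T N, classHom T z = c := by
  classical
  obtain ⟨f, hf, hfc, hfu⟩ := exists_unit_lift hN hbig N le_rfl c hc
  have hfix : ∀ v g, ∀ s ∈ N, evalAt v (g * s) f = evalAt v g f := fun v g s hs => by
    have h1 := congrArg (evalAt v g) (hf s hs)
    exact h1
  have h0 : classHom T (p • f) = 0 := by rw [map_nsmul, hfc, hpc]
  obtain ⟨hx, -, hxu⟩ := components_of_class_zero h0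
  set x : Cu := evalAt none 1 (p • f) with hxdef
  have hxN : ∀ s ∈ N, (s : GQ) • x = x := fun s hs => by
    rw [← hx none mem_placesOf_none s, hxdef, map_nsmul, map_nsmul, ← hfix none 1 s hs, one_mul]
  have hxm : x.toMul ∈ sUnits T N :=
    ⟨fun s hs => congrArg Additive.toMul (hxN s hs), hxu (fun q hq g => by
      rw [toMul_nsmul]; exact pow_mem (hfu q hq g) p)⟩
  obtain ⟨⟨t, ht⟩, htx⟩ := sUnit_mem_powers_of_locally hp2 hT (N := N) hN hbig N le_rfl hμ ⟨_, hxm⟩
    fun v hv g => by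
      refine ⟨g⁻¹ • (evalAt v g f).toMul, ?_, fun h hh hd => ?_⟩
      · rw [← smul_pow', ← toMul_nsmul, ← map_nsmul, hx v hv g]
        exact inv_smul_smul g x.toMul
      · have h2 : evalAt v g f = (g * h * g⁻¹) • evalAt v g f := by
          rw [← evalAt_decomp v hd, show g * h * g⁻¹ * g = g * h by group]
          exact (hfix v g h hh).symm
        conv_rhs => rw [h2]
        show h • g⁻¹ • _ = g⁻¹ • ((g * h * g⁻¹) • (_ : ℚbˣ))
        rw [← mul_smul, ← mul_smul]
        congr 1
        group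
  have htp : t ^ p = x.toMul := congrArg Subtype.val htx
  let F : Place → GQ → ℚbˣ := fun v g =>
    if v ∈ placesOf T then (evalAt v g f).toMul / (g • t) else 1
  have hFm : F ∈ idele T := by
    refine ⟨fun v d hd g => ?_, ⟨N, hN, fun v g s hs => ?_⟩, T.finite_toSet.subset fun q ⟨g, hg⟩ => ?_⟩
    · simp only [F]
      split_ifs with hv
      · rw [evalAt_decomp v hd, smul_div', mul_smul]; rfl
      · exact (smul_one d).symm
    · simp only [F]
      rw [hfix v g s hs, mul_smul, ht.1 s hs]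
    · by_contra hq
      simp only [F, if_neg fun h => hq (mem_placesOf_some.mp h)] at hg
      exact hg (one_mem _)
  let z : Additive (idele T) := Additive.ofMul ⟨F, hFm⟩
  refine ⟨z, ⟨fun v g s hs => congrArg Additive.ofMul ?_, idele_ext fun v g => ?_,
    fun v hv g => congrArg Additive.ofMul (if_neg hv)⟩, ?_⟩
  · show F v (g * s) = F v g
    simp only [F]
    rw [hfix v g s hs, mul_smul, ht.1 s hs]
  · rw [map_nsmul, map_zero]
    refine Additive.toMul.injective ?_
    show (F v g) ^ p = 1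
    simp only [F]
    split_ifs with hv
    · rw [div_pow, ← smul_pow', htp, ← toMul_nsmul, ← map_nsmul, hx v hv g]
      exact div_self' _
    · exact one_pow p
  · rw [← hfc, eq_comm, ← sub_eq_zero, ← map_sub]
    refine classHom_eq_zero_of (Additive.ofMul t) hN
      (fun s hs => congrArg Additive.ofMul (ht.1 s hs)) (fun v hv g => ?_) (fun q hq g => ?_) ht.2
    · rw [map_sub]
      refine Additive.toMul.injective ?_
      show (evalAt v g f).toMul / F v g = g • t
      simp only [F, if_pos hv]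
      exact div_div_cancel _ _
    · show f.toMul.1 (some q) g / F (some q) g ∈ _
      simp only [F, if_neg fun h => hq (mem_placesOf_some.mp h), div_one]
      exact hfu q hq g

variable (M : Type) [AddCommGroup M] [DistribMulAction (LT T).G M]

variable (p) in
/-- Equivariant maps into torsion ideles. -/
def torsionHoms (H N : Subgroup GQ) : AddSubgroup (M →+ Additive (idele T)) where
  carrier := {ψ | (∀ m, ψ m ∈ torsionIdeles p T N) ∧
    ∀ h ∈ H, ∀ m, ψ (lt T h • m) = lt T h • ψ m}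
  zero_mem' := ⟨fun _ => zero_mem _, fun h _ m => (smul_zero (lt T h)).symm⟩
  add_mem' := fun ha hb => ⟨fun m => add_mem (ha.1 m) (hb.1 m), fun h hh m => by
    simp only [AddMonoidHom.add_apply, ha.2 h hh, hb.2 h hh, smul_add]⟩
  neg_mem' := fun ha => ⟨fun m => neg_mem (ha.1 m), fun h hh m => by
    simp only [AddMonoidHom.neg_apply, ha.2 h hh, smul_neg]⟩

variable {M}

/-- The map from torsion ideles to classes. -/
def torsionToClass (H N : Subgroup GQ) :
    torsionHoms (T := T) p M H N →+ ((LT T).sub (asLT T H)).HomC M (ClassT T) :=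
  AddMonoidHom.mk' (fun ψ => ⟨(classHom T).comp ψ.1, fun k m => by
      show classHom T (ψ.1 (lt T (show GQ from k.1) • m)) = _
      rw [ψ.2.2 _ k.2, classHom_smul]
      rfl⟩)
    fun ψ ψ' => Subtype.ext (AddMonoidHom.comp_add _ _ _)

/-- Averaging lifts. -/
theorem torsionToClass_surjective [Finite M] (hp2 : p ≠ 2) (hT : (⟨p, Fact.out⟩ : Nat.Primes) ∈ T)
    {H N : Subgroup GQ} (hN : (LT T).IsLevel N) (hle : N ≤ H) (hidx : ¬ p ∣ (N.subgroupOf H).index)
    (hμ : FixesMu p N) (hbig : IsBig T N) (hp : ∀ m : M, p • m = 0)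
    (hMN : ∀ s ∈ N, ∀ m : M, lt T s • m = m) :
    Function.Surjective (torsionToClass (p := p) (T := T) (M := M) H N) := by
  classical
  haveI hn : N.Normal := (LT T).normal N hN
  haveI : N.FiniteIndex := (LT T).finiteIndex N hN
  letI : Fintype (H ⧸ N.subgroupOf H) := Fintype.ofFinite _
  intro χ
  have hχ : ∀ h (hh : h ∈ H) m, χ.1 (lt T h • m) = lt T h • χ.1 m := fun h hh m => χ.2 ⟨lt T h, hh⟩ m
  let C₀ : AddSubgroup (ClassT T) :=
    { carrier := {c | (∀ s ∈ N, lt T s • c = c) ∧ p • c = 0}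
      zero_mem' := ⟨fun s _ => smul_zero _, smul_zero _⟩
      add_mem' := fun ha hb => ⟨fun s hs => by rw [smul_add, ha.1 s hs, hb.1 s hs],
        by rw [smul_add, ha.2, hb.2, add_zero]⟩
      neg_mem' := fun ha => ⟨fun s hs => by rw [smul_neg, ha.1 s hs], by rw [smul_neg, ha.2, neg_zero]⟩ }
  have hZC : ∀ z ∈ torsionIdeles p T N, classHom T z ∈ C₀ := fun z hz => ⟨fun s hs => by
    rw [← classHom_smul]
    exact congrArg (classHom T) (idele_ext fun v g => (evalAt_lt v g s z).trans (hz.1 v g s hs)),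
    by rw [← map_nsmul, hz.2.1, map_zero]⟩
  let π : torsionIdeles p T N →+ C₀ :=
    ((classHom T).comp (torsionIdeles p T N).subtype).codRestrict C₀ fun z => hZC z z.2
  have hπ : Function.Surjective π := fun c => by
    obtain ⟨z, hz, he⟩ := exists_torsion_lift_class hp2 hT hN hμ hbig c.2.1 c.2.2
    exact ⟨⟨z, hz⟩, Subtype.ext he⟩
  have hχC : ∀ m, χ.1 m ∈ C₀ := fun m => ⟨fun s hs => by rw [← hχ s (hle hs), hMN s hs],
    by rw [← map_nsmul, hp, map_zero]⟩
  obtain ⟨l, hl⟩ := exists_addLift hp (fun z : torsionIdeles p T N => Subtype.ext z.2.2.1) π hπ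
    (χ.1.codRestrict C₀ hχC)
  obtain ⟨j, -, hj⟩ := Nat.exists_mul_mod_eq_one_of_coprime
    ((Nat.Prime.coprime_iff_not_dvd hpf.out).mpr hidx).symm hpf.out.one_lt
  let tr : H → M → Additive (idele T) := fun a m =>
    lt T a.1 • (l ((lt T a.1)⁻¹ • m) : Additive (idele T))
  have htr : ∀ (h a : H) (b : H), (h * a)⁻¹ * b ∈ N.subgroupOf H → ∀ m,
      tr b (lt T h.1 • m) = lt T h.1 • tr a m := by
    intro h a b hb m
    obtain ⟨k, hk, rfl⟩ : ∃ k : H, (k : GQ) ∈ N ∧ b = h * a * k :=
      ⟨(h * a)⁻¹ * b, Subgroup.mem_subgroupOf.mp hb, by group⟩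
    show lt T (h.1 * a.1 * k.1) • (l ((lt T (h.1 * a.1 * k.1))⁻¹ • lt T h.1 • m) : Additive (idele T)) = _
    rw [show (lt T (h.1 * a.1 * k.1))⁻¹ • lt T h.1 • m = (lt T a.1)⁻¹ • m from ?_]
    · show (lt T h.1 * lt T a.1 * lt T k.1) • (l _ : Additive (idele T)) = _
      rw [mul_smul, mul_smul]
      refine congrArg (fun x => lt T h.1 • lt T a.1 • x) (idele_ext fun v g => ?_)
      rw [evalAt_lt]
      exact (l _).2.1 v g _ hk
    · show (lt T h.1 * lt T a.1 * lt T k.1)⁻¹ • lt T h.1 • m = _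
      rw [mul_inv_rev, mul_inv_rev, mul_smul, mul_smul, inv_smul_smul]
      exact hMN _ (N.inv_mem hk) _
  let ψ : M →+ Additive (idele T) :=
    AddMonoidHom.mk' (fun m => j • ∑ a : H ⧸ N.subgroupOf H, tr a.out m) fun m m' => by
      rw [← nsmul_add, ← Finset.sum_add_distrib]
      refine congrArg (j • ·) (Finset.sum_congr rfl fun a _ => ?_)
      simp only [tr, smul_add, map_add, AddSubgroup.coe_add]
  have hψ : ψ ∈ torsionHoms (T := T) p M H N := by
    refine ⟨fun m => (torsionIdeles p T N).nsmul_mem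
      (sum_mem fun a _ => smul_torsionIdeles _ (l _).2) j, fun h hh m => ?_⟩
    show j • ∑ a : H ⧸ N.subgroupOf H, tr a.out (lt T h • m) = lt T h • j • ∑ a : H ⧸ N.subgroupOf H, _
    rw [smul_comm (lt T h) j, Finset.smul_sum,
      ← Equiv.sum_comp (MulAction.toPerm (⟨h, hh⟩ : H))
        fun a : H ⧸ N.subgroupOf H => tr a.out (lt T h • m)]
    refine congrArg (j • ·) (Finset.sum_congr rfl fun a _ => htr ⟨h, hh⟩ a.out _ ?_ m)
    refine QuotientGroup.eq.mp ?_
    rw [QuotientGroup.out_eq']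
    conv_rhs => rw [MulAction.toPerm_apply, ← QuotientGroup.out_eq' a]
    rfl
  refine ⟨⟨ψ, hψ⟩, Subtype.ext (AddMonoidHom.ext fun m => ?_)⟩
  show classHom T (j • ∑ a : H ⧸ N.subgroupOf H, tr a.out m) = χ.1 m
  rw [map_nsmul, map_sum, Finset.sum_congr rfl (g := fun _ => χ.1 m) fun a _ => ?_, Finset.sum_const,
    Finset.card_univ, ← Nat.card_eq_fintype_card, ← Subgroup.index_eq_card, smul_smul, mul_comm]
  · conv_lhs => rw [← Nat.mod_add_div ((N.subgroupOf H).index * j) p, hj]
    rw [add_smul, one_smul, mul_comm p, mul_smul, show p • χ.1 m = 0 from (hχC m).2, smul_zero, add_zero]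
  · show classHom T (lt T a.out.1 • (l ((lt T a.out.1)⁻¹ • m) : Additive (idele T))) = _
    rw [classHom_smul, show classHom T (l _ : Additive (idele T)) = _ from congrArg Subtype.val (hl _)]
    show lt T a.out.1 • χ.1 _ = _
    rw [← hχ _ a.out.2, smul_inv_smul]

/-- The kernel consists of the global maps. -/
theorem card_torsionToClass_ker {H N : Subgroup GQ} (hN : (LT T).IsLevel N) (hle : N ≤ H)
    (hμ : FixesMu p N) (hp : ∀ m : M, p • m = 0) :
    Nat.card (torsionToClass (p := p) (T := T) (M := M) H N).ker =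
      Nat.card {φ : M →+ Cu // ∀ h ∈ H, ∀ m, φ (lt T h • m) = h • φ m} := by
  classical
  have hroot : ∀ (φ : M →+ Cu) m, (φ m).toMul ^ p = 1 := fun φ m => by
    rw [← toMul_nsmul, ← map_nsmul, hp, map_zero]; rfl
  have hfixμ : ∀ (φ : M →+ Cu) m, ∀ s ∈ N, (s : GQ) • φ m = φ m := fun φ m s hs =>
    Additive.toMul.injective (Units.ext (hμ s hs ((φ m).toMul : ℚb)
      (by rw [← Units.val_pow_eq_pow_val, hroot, Units.val_one])))
  let F : (M →+ Cu) → M → Place → GQ → ℚbˣ := fun φ m v g =>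
    if v ∈ placesOf T then g • (φ m).toMul else 1
  have hFm : ∀ φ m, F φ m ∈ idele T := fun φ m => by
    refine ⟨fun v d _ g => ?_, ⟨N, hN, fun v g s hs => ?_⟩, T.finite_toSet.subset fun q ⟨g, hg⟩ => ?_⟩
    · simp only [F]
      split_ifs
      · rw [mul_smul]
      · exact (smul_one d).symm
    · simp only [F]
      rw [mul_smul, show (s : GQ) • (φ m).toMul = (φ m).toMul from
        congrArg Additive.toMul (hfixμ φ m s hs)]
    · by_contra hq
      simp only [F, if_neg fun h => hq (mem_placesOf_some.mp h)] at hg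
      exact hg (one_mem _)
  let D : (M →+ Cu) → M →+ Additive (idele T) := fun φ =>
    AddMonoidHom.mk' (fun m => Additive.ofMul ⟨F φ m, hFm φ m⟩) fun a b => idele_ext fun v g => by
      rw [map_add]
      refine Additive.toMul.injective ?_
      show F φ (a + b) v g = F φ a v g * F φ b v g
      simp only [F]
      split_ifs
      · rw [map_add, toMul_add, smul_mul']
      · exact (mul_one 1).symm
  have hDe : ∀ φ m v g, evalAt v g (D φ m) =
      if v ∈ placesOf T then g • φ m else 0 := fun φ m v g => by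
    refine Additive.toMul.injective ?_
    show F φ m v g = _
    simp only [F]
    split_ifs <;> rfl
  have hcomp : ∀ ψ : (torsionToClass (p := p) (T := T) (M := M) H N).ker, ∀ m, ∀ v ∈ placesOf T, ∀ g : GQ,
      evalAt v g (ψ.1.1 m) = g • evalAt none 1 (ψ.1.1 m) := fun ψ m v hv g =>
    (components_of_class_zero (congrArg (fun c : ((LT T).sub (asLT T H)).HomC M (ClassT T) => c.1 m)
      (AddMonoidHom.mem_ker.mp ψ.2))).1 v hv g
  refine Nat.card_congr
    ⟨fun ψ => ⟨(evalAt none 1).comp ψ.1.1, fun h hh m => ?_⟩,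
      fun φ => ⟨⟨D φ.1, fun m => ?_, fun h hh m => ?_⟩, ?_⟩,
      fun ψ => Subtype.ext (Subtype.ext (AddMonoidHom.ext fun m => idele_ext fun v g => ?_)),
      fun φ => Subtype.ext (AddMonoidHom.ext fun m => ?_)⟩
  · show evalAt none 1 (ψ.1.1 (lt T h • m)) = h • evalAt none 1 (ψ.1.1 m)
    rw [ψ.1.2.2 h hh, evalAt_lt, one_mul]
    exact hcomp ψ m none mem_placesOf_none h
  · refine ⟨fun v g s hs => ?_, idele_ext fun v g => ?_, fun v hv g => ?_⟩
    · rw [hDe, hDe, mul_smul, hfixμ φ.1 m s hs]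
    · rw [map_nsmul, map_zero, hDe]
      split_ifs
      · rw [← smul_comm, ← map_nsmul, hp, map_zero, smul_zero]
      · exact smul_zero _
    · rw [hDe, if_neg hv]
  · refine idele_ext fun v g => ?_
    rw [evalAt_lt, hDe, hDe, φ.2 h hh, mul_smul]
  · refine AddMonoidHom.mem_ker.mpr (Subtype.ext (AddMonoidHom.ext fun m => ?_))
    show classHom T (D φ.1 m) = 0
    refine classHom_eq_zero_of (φ.1 m) hN (fun s hs => hfixμ φ.1 m s hs)
      (fun v hv g => by rw [hDe, if_pos hv]) (fun q hq g => ?_) (fun q hq g => ?_)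
    · show F φ.1 m (some q) g ∈ _
      simp only [F, if_neg fun h => hq (mem_placesOf_some.mp h)]
      exact one_mem _
    · rw [ValuationSubring.mem_unitGroup_iff]
      have h1 := congrArg (fun u : ℚbˣ => (placeAt q).valuation (u : ℚb))
        (show (g • (φ.1 m).toMul) ^ p = 1 by rw [← smul_pow', hroot, smul_one])
      simp only [Units.val_pow_eq_pow_val, map_pow, Units.val_one, map_one] at h1
      exact (pow_eq_one_iff.mp h1).resolve_right hpf.out.ne_zero
  · show evalAt v g (D ((evalAt none 1).comp ψ.1.1) m) = _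
    rw [hDe]
    split_ifs with hv
    · exact (hcomp ψ m v hv g).symm
    · exact ((ψ.1.2.1 m).2.2 v hv g).symm
  · show evalAt none 1 (D φ.1 m) = φ.1 m
    rw [hDe, if_pos mem_placesOf_none, one_smul]

/-- Equivariant maps into torsion ideles are families of local ones. -/
theorem torsionHoms_equiv {H N : Subgroup GQ} (hN : (LT T).IsLevel N) (hle : N ≤ H)
    (hp : ∀ m : M, p • m = 0) (hMN : ∀ s ∈ N, ∀ m : M, lt T s • m = m) :
    Nonempty (torsionHoms (T := T) p M H N ≃ ∀ v : placesOf T, ∀ w : PlacesAbove v.1 H,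
      {φ : M →+ Cu // ∀ h ∈ H, w.out * h * w.out⁻¹ ∈ decomp v.1 →
        ∀ m, φ (lt T h • m) = h • φ m}) := by
  classical
  let fwd : torsionHoms (T := T) p M H N → ∀ v : placesOf T, ∀ w : PlacesAbove v.1 H,
      {φ : M →+ Cu // ∀ h ∈ H, w.out * h * w.out⁻¹ ∈ decomp v.1 →
        ∀ m, φ (lt T h • m) = h • φ m} := fun ψ v w =>
    ⟨(DistribSMul.toAddMonoidHom Cu w.out⁻¹).comp ((evalAt v.1 w.out).comp ψ.1), fun h hh hd m => by
      show w.out⁻¹ • evalAt v.1 w.out (ψ.1 (lt T h • m)) = h • w.out⁻¹ • evalAt v.1 w.out (ψ.1 m)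
      rw [ψ.2.2 h hh, evalAt_lt, show w.out * h = w.out * h * w.out⁻¹ * w.out by group,
        evalAt_decomp v.1 hd, ← mul_smul, ← mul_smul]
      congr 1
      group⟩
  -- gluing
  let fam : (∀ v : placesOf T, ∀ w : PlacesAbove v.1 H,
      {φ : M →+ Cu // ∀ h ∈ H, w.out * h * w.out⁻¹ ∈ decomp v.1 →
        ∀ m, φ (lt T h • m) = h • φ m}) → Place → GQ → M →+ Cu := fun Φ v r =>
    if hv : v ∈ placesOf T then (Φ ⟨v, hv⟩ (DoubleCoset.mk (decomp v) H r)).1 else 0
  have hfam : ∀ Φ v r, dRep (decomp v) H r = r → ∀ h ∈ H, r * h * r⁻¹ ∈ decomp v →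
      ∀ m, fam Φ v r (lt T h • m) = h • fam Φ v r m := by
    intro Φ v r hr h hh hd m
    simp only [fam]
    split_ifs with hv
    · refine (Φ ⟨v, hv⟩ (DoubleCoset.mk (decomp v) H r)).2 h hh ?_ m
      show dRep (decomp v) H r * h * (dRep (decomp v) H r)⁻¹ ∈ decomp v
      rwa [hr]
    · exact (smul_zero h).symm
  have hglue : ∀ Φ v, ∃ B : GQ → M → Cu, ∀ (d : decomp v) (g : GQ) (k : H),
      B ((d : GQ) * dRep (decomp v) H g * (k : GQ)) = fun m =>
        (d : GQ) • dRep (decomp v) H g • fam Φ v (dRep (decomp v) H g) (lt T (k : GQ) • m) := by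
    intro Φ v
    obtain ⟨B, hB⟩ := exists_glue (D := decomp v) (A := M → Cu) (H := H)
      (fun r k => if dRep (decomp v) H r = r then
          (fun m => r • fam Φ v r (lt T (k : GQ) • m)) else 0) (fun r e k => by
        split_ifs with hr
        · funext m
          show r • fam Φ v r (lt T (((cj e * k : H) : GQ)) • m) =
            ((e : decomp v) : GQ) • r • fam Φ v r (lt T (k : GQ) • m)
          rw [show lt T (((cj e * k : H) : GQ)) • m =
            lt T ((cj e : H) : GQ) • lt T (k : GQ) • m from mul_smul (lt T _) (lt T _) m,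
            hfam Φ v r hr _ (cj e).2 ?_, ← mul_smul, ← mul_smul, mul_cj]
          rw [mul_cj, mul_inv_cancel_right]
          exact (e : decomp v).2
        · exact (smul_zero _).symm)
    refine ⟨B, fun d g k => ?_⟩
    rw [hB, if_pos (dRep_dRep H g)]
    rfl
  choose B hB using hglue
  have hBd : ∀ Φ v (d : decomp v) g m, B Φ v ((d : GQ) * g) m = (d : GQ) • B Φ v g m := by
    intro Φ v d g m
    obtain ⟨d', k, hg⟩ := exists_eq_dRep (D := decomp v) H g
    conv_lhs => rw [hg, ← mul_assoc, ← mul_assoc, ← Subgroup.coe_mul, hB]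
    conv_rhs => rw [hg, hB]
    simp only [Subgroup.coe_mul, mul_smul]
  have hBh : ∀ Φ v g, ∀ h ∈ H, ∀ m, B Φ v (g * h) m = B Φ v g (lt T h • m) := by
    intro Φ v g h hh m
    obtain ⟨d', k, hg⟩ := exists_eq_dRep (D := decomp v) H g
    conv_lhs => rw [hg, mul_assoc, show (k : GQ) * h = ((k * ⟨h, hh⟩ : H) : GQ) from rfl, hB]
    conv_rhs => rw [hg, hB]
    show _ • _ • fam Φ v _ (lt T ((k : GQ) * h) • m) = _
    rw [show lt T ((k : GQ) * h) • m = lt T (k : GQ) • lt T h • m from mul_smul (lt T _) (lt T _) m]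
  have hB0 : ∀ Φ v, v ∉ placesOf T → ∀ g m, B Φ v g m = 0 := by
    intro Φ v hv g m
    obtain ⟨d', k, hg⟩ := exists_eq_dRep (D := decomp v) H g
    rw [hg, hB]
    simp only [fam, dif_neg hv, AddMonoidHom.zero_apply, smul_zero]
  have hBadd : ∀ Φ v g m m', B Φ v g (m + m') = B Φ v g m + B Φ v g m' := by
    intro Φ v g m m'
    obtain ⟨d', k, hg⟩ := exists_eq_dRep (D := decomp v) H g
    rw [hg, hB]
    simp only [smul_add, map_add]
  have hBm : ∀ Φ m, (fun v g => (B Φ v g m).toMul) ∈ idele T := fun Φ m => by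
    refine ⟨fun v d hd g => congrArg Additive.toMul (hBd Φ v ⟨d, hd⟩ g m),
      ⟨N, hN, fun v g s hs => congrArg Additive.toMul ((hBh Φ v g s (hle hs) m).trans
        (congrArg (B Φ v g) (hMN s hs m)))⟩, T.finite_toSet.subset fun q ⟨g, hg⟩ => ?_⟩
    by_contra hq
    refine hg ?_
    show (B Φ (some q) g m).toMul ∈ _
    rw [hB0 Φ _ (fun h => hq (mem_placesOf_some.mp h))]
    exact one_mem _
  let bwd := fun Φ => (AddMonoidHom.mk' (fun m => Additive.ofMul (⟨_, hBm Φ m⟩ : idele T))
    fun m m' => idele_ext fun v g => by rw [map_add]; exact hBadd Φ v g m m')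
  have hbwd : ∀ Φ, bwd Φ ∈ torsionHoms (T := T) p M H N := fun Φ => by
    refine ⟨fun m => ⟨fun v g s hs => (hBh Φ v g s (hle hs) m).trans
      (congrArg (B Φ v g) (hMN s hs m)), ?_, fun v hv g => hB0 Φ v hv g m⟩,
      fun h hh m => idele_ext fun v g => ?_⟩
    · rw [← map_nsmul, hp, map_zero]
    · rw [evalAt_lt]
      exact (hBh Φ v g h hh m).symm
  refine ⟨⟨fwd, fun Φ => ⟨bwd Φ, hbwd Φ⟩,
    fun ψ => Subtype.ext (AddMonoidHom.ext fun m => idele_ext fun v g => ?_),
    fun Φ => funext fun v => funext fun w => Subtype.ext (AddMonoidHom.ext fun m => ?_)⟩⟩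
  · show B (fwd ψ) v g m = evalAt v g (ψ.1 m)
    obtain ⟨d, k, hg⟩ := exists_eq_dRep (D := decomp v) H g
    rw [hg, hB]
    simp only [fam]
    split_ifs with hv
    · show (d : GQ) • dRep (decomp v) H g • (dRep (decomp v) H (dRep (decomp v) H g))⁻¹ •
        evalAt v (dRep (decomp v) H (dRep (decomp v) H g)) (ψ.1 (lt T (k : GQ) • m)) = _
      rw [dRep_dRep, smul_inv_smul, ψ.2.2 _ k.2, evalAt_lt, ← evalAt_decomp v d.2, mul_assoc]
    · rw [(ψ.2.1 m).2.2 v hv]
      simp only [AddMonoidHom.zero_apply, smul_zero]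
  · show w.out⁻¹ • B Φ v.1 w.out m = (Φ v w).1 m
    have hr : dRep (decomp v.1) H w.out = w.out := by
      show (DoubleCoset.mk (decomp v.1) H w.out : DoubleCoset.Quotient _ _).out = w.out
      rw [DoubleCoset.out_eq']
    have h1 := congrFun (hB Φ v.1 1 w.out 1) m
    rw [hr, Subgroup.coe_one, Subgroup.coe_one, one_mul, mul_one, one_smul] at h1
    rw [h1, inv_smul_smul, show lt T (1 : GQ) • m = m from one_smul (LT T).G m]
    simp only [fam, dif_pos v.2]
    rw [DoubleCoset.out_eq']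

/-- Equivariant maps into classes are counted by the local ones. -/
theorem card_homC_classes [Finite M] (hp2 : p ≠ 2) (hT : (⟨p, Fact.out⟩ : Nat.Primes) ∈ T)
    (H N : Subgroup GQ) (hN : (LT T).IsLevel N) (hle : N ≤ H)
    (hidx : ¬ p ∣ (N.subgroupOf H).index) (hμ : FixesMu p N) (hbig : IsBig T N)
    (hp : ∀ m : M, p • m = 0) (hMN : ∀ s ∈ N, ∀ m : M, lt T s • m = m) :
    Finite (((LT T).sub (asLT T H)).HomC M (ClassT T)) ∧
      Nat.card (((LT T).sub (asLT T H)).HomC M (ClassT T)) *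
          Nat.card {φ : M →+ Cu // ∀ h ∈ H, ∀ m, φ (lt T h • m) = h • φ m} =
        ∏ v ∈ placesOf T, ∏ᶠ w : PlacesAbove v H,
          Nat.card {φ : M →+ Cu // ∀ h ∈ H, w.out * h * w.out⁻¹ ∈ decomp v →
            ∀ m, φ (lt T h • m) = h • φ m} := by
  classical
  haveI : H.FiniteIndex := finiteIndex_of_level_le hN hle
  haveI : ∀ v, Finite (PlacesAbove v H) := fun v => finite_placesAbove v H
  haveI : Finite (M →+ Cu) := CoDual.finite (p := p) hp
  obtain ⟨e⟩ := torsionHoms_equiv (p := p) (M := M) hN hle hp hMN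
  haveI : Finite (torsionHoms (T := T) p M H N) := Finite.of_equiv _ e.symm
  have hs := torsionToClass_surjective hp2 hT hN hle hidx hμ hbig hp hMN
  haveI hfin : Finite (((LT T).sub (asLT T H)).HomC M (ClassT T)) := Finite.of_surjective _ hs
  refine ⟨hfin, ?_⟩
  have h1 := AddSubgroup.card_eq_card_quotient_mul_card_addSubgroup
    (torsionToClass (p := p) (T := T) (M := M) H N).ker
  rw [Nat.card_congr (QuotientAddGroup.quotientKerEquivOfSurjective _ hs).toEquiv,
    card_torsionToClass_ker hN hle hμ hp, Nat.card_congr e, Nat.card_pi] at h1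
  rw [← h1, ← Finset.prod_coe_sort (placesOf T)]
  refine Finset.prod_congr rfl fun v _ => ?_
  letI := Fintype.ofFinite (PlacesAbove v.1 H)
  rw [Nat.card_pi, finprod_eq_prod_of_fintype]

end Fermat.Agent.GD
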