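import Fermat.Agent.GD.Bases.Euler.KummerUnits
import Fermat.Agent.GD.Bases.Euler.HomClasses

/-!
# Euler characteristics at a level of index prime to `p`
-/

set_option autoImplicit false
set_option linter.style.haveILetI false
set_option linter.unusedSectionVars false

noncomputable section

namespace Fermat.Agent.GD

open Fermat.Agent.Galois (GQ)

local notation "ℚb" => AlgebraicClosure ℚ
local notation "Cu" => Additive (AlgebraicClosure ℚ)ˣ

variable {p : ℕ} [hpf : Fact p.Prime]

theorem index_subgroupOf_dvd {G : Type} [Group G] {H N K : Subgroup G} [hn : N.Normal] (hK : K ≤ H) :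
    (N.subgroupOf K).index ∣ (N.subgroupOf H).index := by
  rw [Subgroup.index_eq_card, Subgroup.index_eq_card]
  refine Subgroup.card_dvd_of_injective
    (QuotientGroup.map (N.subgroupOf K) (N.subgroupOf H) (Subgroup.inclusion hK) fun x hx => hx) ?_
  refine (injective_iff_map_eq_one _).mpr fun x hx => ?_
  obtain ⟨x, rfl⟩ := QuotientGroup.mk_surjective x
  exact (QuotientGroup.eq_one_iff x).mpr ((QuotientGroup.eq_one_iff (Subgroup.inclusion hK x)).mp hx)

section Dual

variable {G : Type} [Group G] [MulDistribMulAction G ℚbˣ]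
variable {M : Type} [AddCommGroup M] [DistribMulAction G M]

theorem card_fixed_coDual (K : Subgroup G) :
    Nat.card {f : CoDual M // ∀ k ∈ K, k • f = f} =
      Nat.card {φ : M →+ Cu // ∀ k ∈ K, ∀ m, φ (k • m) = k • φ m} :=
  Nat.card_congr (Equiv.subtypeEquiv (Equiv.refl _) fun f => ⟨fun hf k hk m => by
    have h1 := congrArg (fun z : CoDual M => z.hom (k • m)) (hf k hk)
    simp only [CoDual.smul_apply, inv_smul_smul] at h1
    exact h1.symm, fun hf k hk => CoDual.hom_ext fun m => by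
      rw [CoDual.smul_apply]
      refine (congrArg (k • ·) (hf k⁻¹ (K.inv_mem hk) m)).trans ?_
      exact smul_inv_smul k _⟩)

/-- Invariant functionals on the dual are equivariant maps into the algebraic numbers. -/
theorem card_invFunctionals_coDual [Finite M] {H N K : Subgroup G} [hn : N.Normal]
    [N.FiniteIndex] (hK : K ≤ H) (hidx : ¬ p ∣ (N.subgroupOf H).index) (hp : ∀ m : M, p • m = 0)
    (hMN : ∀ s ∈ N, ∀ f : CoDual M, s • f = f) :
    Nat.card {φ : CoDual M →+ ZMod p // ∀ k ∈ K, ∀ f, φ (k • f) = φ f} =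
      Nat.card {φ : M →+ Cu // ∀ k ∈ K, ∀ m, φ (k • m) = k • φ m} := by
  haveI : Finite (CoDual M) := CoDual.finite (p := p) hp
  have e : (N ⊓ K).subgroupOf K = N.subgroupOf K := Subgroup.inf_subgroupOf_right N K
  have hA : CoprimeAct p K (N ⊓ K) (CoDual M) :=
    ⟨inf_le_right, by rw [e]; infer_instance, by rw [e]; infer_instance,
      by rw [e]; exact fun h => hidx (h.trans (index_subgroupOf_dvd hK)),
      CoDual.killed hp, fun s hs f => hMN s hs.1 f⟩
  rw [card_invFunctionals hA, card_fixed_coDual]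

theorem card_sub_fixed {L : LevelGroup.{0}} {M : Type} [AddCommGroup M] [DistribMulAction L.G M]
    (H : Subgroup L.G) :
    Nat.card ((L.sub H).fixed M) = Nat.card {m : M // ∀ h ∈ H, h • m = m} :=
  Nat.card_congr (Equiv.subtypeEquiv (Equiv.refl _) fun m =>
    ⟨fun hm h hh => hm ⟨h, hh⟩, fun hm h => hm _ (h : H).2⟩)

end Dual

/-- The global base case. -/
theorem euler_global_base (hp2 : p ≠ 2) (T : Finset Nat.Primes)
    (hT : (⟨p, Fact.out⟩ : Nat.Primes) ∈ T) (H N : Subgroup (LT T).G) (hN : (LT T).IsLevel N)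
    (hle : N ≤ H) (hidx : ¬ p ∣ (N.subgroupOf H).index) (hμ : FixesMu p N) (hbig : IsBig T N)
    (M : Type) [AddCommGroup M] [Finite M] [DistribMulAction (LT T).G M]
    (hp : ∀ m : M, p • m = 0) (hMN : ∀ s ∈ N, ∀ m : M, s • m = m) :
    Finite (((LT T).sub H).H1 M) ∧ Finite (((LT T).sub H).HomC M (ClassT T)) ∧
      Nat.card (((LT T).sub H).H1 M) = Nat.card (((LT T).sub H).fixed M) *
        Nat.card (((LT T).sub H).HomC M (ClassT T)) := by
  classical
  haveI hn : N.Normal := (LT T).normal N hN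
  haveI : N.FiniteIndex := (LT T).finiteIndex N hN
  haveI : Finite (CoDual M) := CoDual.finite (p := p) hp
  haveI : Finite (M →+ Cu) := CoDual.finite (p := p) hp
  haveI : Finite (CoDual M →+ Cu) := CoDual.finite (p := p) (CoDual.killed hp)
  have hK := isKummer_sUnits hT hN hμ hbig
  have hCN : ∀ s ∈ N, ∀ f : CoDual M, s • f = f := CoDual.fixesMu_smul hp hK.mu hMN
  obtain ⟨e₁⟩ := h1_sub_equiv (L := LT T) hN hle hidx hp hMN
  obtain ⟨e₂⟩ := eqHoms_equiv (L := LT T) (H := H) hN hK hp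
  have key := card_sUnits_hom p T hp2 H N hN hle hidx hμ (CoDual M) (CoDual.killed hp) hCN
  obtain ⟨hCfin, hC⟩ := card_homC_classes (M := M) hp2 hT H N hN hle hidx hμ hbig hp hMN
  have hb := card_invFunctionals_coDual (G := (LT T).G) (K := H) le_rfl hidx hp hCN
  have hfix := CoDual.card_fixed_eq (G := (LT T).G) (H := H) hp
  have hprod : (∏ v ∈ placesOf T, ∏ᶠ w : PlacesAbove v H,
      Nat.card {φ : CoDual M →+ ZMod p //
        ∀ h ∈ H, (Quotient.out w : GQ) * (show GQ from h) * (Quotient.out w : GQ)⁻¹ ∈ decomp v →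
          ∀ f, φ (h • f) = φ f}) =
      ∏ v ∈ placesOf T, ∏ᶠ w : PlacesAbove v H,
        Nat.card {φ : M →+ Cu // ∀ h ∈ (show Subgroup GQ from H), w.out * h * w.out⁻¹ ∈ decomp v →
          ∀ m, φ (lt T h • m) = h • φ m} := by
    refine Finset.prod_congr rfl fun v _ => finprod_congr fun w => ?_
    let r : GQ := Quotient.out w
    let K : Subgroup (LT T).G := H ⊓ ((decomp v).comap (MulAut.conj r).toMonoidHom)
    refine Eq.trans ?_ ((card_invFunctionals_coDual (G := (LT T).G) (K := K) inf_le_left hidx hp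
      hCN).trans ?_)
    · exact Nat.card_congr (Equiv.subtypeEquiv (Equiv.refl _) fun φ =>
        ⟨fun h k hk => h k hk.1 hk.2, fun h k hk hd => h k ⟨hk, hd⟩⟩)
    · exact Nat.card_congr (Equiv.subtypeEquiv (Equiv.refl _) fun φ =>
        ⟨fun h k hk hd => h k ⟨hk, hd⟩, fun h k hk => h k hk.1 hk.2⟩)
  rw [hprod, ← hC, hb] at key
  have key2 : Nat.card (HomModPowers p H (sUnits T N) (CoDual M)) *
      Nat.card {φ : M →+ Cu // ∀ h ∈ H, ∀ m, φ (h • m) = h • φ m} =
      Nat.card {φ : CoDual M →+ Cu // ∀ h ∈ H, ∀ f, φ (h • f) = h • φ f} *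
        Nat.card (((LT T).sub H).HomC M (ClassT T)) *
      Nat.card {φ : M →+ Cu // ∀ h ∈ H, ∀ m, φ (h • m) = h • φ m} := by
    rw [mul_assoc]
    exact key
  haveI : Nonempty {φ : M →+ Cu // ∀ h ∈ H, ∀ m, φ (h • m) = h • φ m} :=
    ⟨⟨0, fun h _ m => (smul_zero h).symm⟩⟩
  have hA := Nat.eq_of_mul_eq_mul_right Nat.card_pos key2
  rw [← hfix, ← card_sub_fixed, ← Nat.card_congr (e₁.trans e₂)] at hA
  haveI := hCfin
  haveI : Nonempty (((LT T).sub H).fixed M) := ⟨⟨0, fun g => smul_zero g⟩⟩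
  exact ⟨Nat.finite_of_card_ne_zero (by rw [hA]; exact mul_ne_zero Nat.card_pos.ne' Nat.card_pos.ne'),
    hCfin, hA⟩

/-- The local base case. -/
theorem euler_local_base (q : Nat.Primes) (H N : Subgroup (LD (some q)).G)
    (hN : (LD (some q)).IsLevel N) (hle : N ≤ H) (hidx : ¬ p ∣ (N.subgroupOf H).index)
    (hμ : ∀ μ : ℚbˣ, μ ^ p = 1 → ∀ s ∈ N, s • μ = μ)
    (M : Type) [AddCommGroup M] [Finite M] [DistribMulAction (LD (some q)).G M]
    (hp : ∀ m : M, p • m = 0) (hMN : ∀ s ∈ N, ∀ m : M, s • m = m) :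
    Finite (((LD (some q)).sub H).H1 M) ∧ Finite (((LD (some q)).sub H).HomC M Cu) ∧
      Nat.card (((LD (some q)).sub H).H1 M) = Nat.card (((LD (some q)).sub H).fixed M) *
        Nat.card (((LD (some q)).sub H).HomC M Cu) * Nat.card M ^ localExp p (some q) H := by
  haveI hn : N.Normal := (LD (some q)).normal N hN
  haveI : N.FiniteIndex := (LD (some q)).finiteIndex N hN
  haveI : Finite (CoDual M) := CoDual.finite (p := p) hp
  haveI : Finite (M →+ Cu) := CoDual.finite (p := p) hp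
  have hK := isKummer_fixedUnits (p := p) hN hμ
  have hCN : ∀ s ∈ N, ∀ f : CoDual M, s • f = f := CoDual.fixesMu_smul hp hμ hMN
  obtain ⟨e₁⟩ := h1_sub_equiv (L := LD (some q)) hN hle hidx hp hMN
  obtain ⟨e₂⟩ := eqHoms_equiv (L := LD (some q)) (H := H) hN hK hp
  have key := card_local_hom p q H N hN hle hidx (fun h hh μ h1 => hμ μ h1 h hh) (CoDual M)
    (CoDual.killed hp) hCN
  have hH : Nat.card {φ : M →+ Cu // ∀ h ∈ H, ∀ m, φ (h • m) = h • φ m} =
      Nat.card (((LD (some q)).sub H).HomC M Cu) :=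
    Nat.card_congr (Equiv.subtypeEquiv (Equiv.refl _) fun φ =>
      ⟨fun h k m => h _ (k : H).2 m, fun h k hk m => h ⟨k, hk⟩ m⟩)
  rw [← CoDual.card_fixed_eq (G := (LD (some q)).G) hp,
    card_invFunctionals_coDual (G := (LD (some q)).G) (K := H) le_rfl hidx hp hCN, hH,
    ← card_sub_fixed, CoDual.card hp, ← Nat.card_congr (e₁.trans e₂)] at key
  haveI hfinH : Finite (((LD (some q)).sub H).HomC M Cu) :=
    Finite.of_injective (fun φ => (φ.1 : M →+ Cu)) Subtype.val_injective
  haveI : Nonempty (((LD (some q)).sub H).fixed M) := ⟨⟨0, fun g => smul_zero g⟩⟩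
  exact ⟨Nat.finite_of_card_ne_zero (by
    rw [key]
    exact mul_ne_zero (mul_ne_zero Nat.card_pos.ne' Nat.card_pos.ne')
      (pow_ne_zero _ Nat.card_pos.ne')), hfinH, key⟩

end Fermat.Agent.GD
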