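import Fermat.Agent.GD.Bases.Euler.Places

/-!
# Fixed classes modulo `p`-th powers
-/

set_option autoImplicit false
set_option linter.style.haveILetI false

noncomputable section

namespace Fermat.Agent.GD

open Fermat.Agent.Galois (GQ)

local notation "ℚb" => AlgebraicClosure ℚ

variable (p : ℕ) [hpf : Fact p.Prime] (T : Finset Nat.Primes)

/-- The local units of a place modulo `p`-th powers. -/
abbrev placeUnitsMod (v : Place) (H : Subgroup GQ) (w : PlacesAbove v H) : Type :=
  fixedUnits (v := v) (placeGroup v H w) ⧸ powers p (fixedUnits (v := v) (placeGroup v H w))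

/-- The exponent at a place. -/
def placeExp (v : Place) (H : Subgroup GQ) (w : PlacesAbove v H) : ℕ :=
  match v with
  | none => 0
  | some q => 2 + localExp p (some q) (placeGroup (some q) H w)

variable {p} {T}

theorem card_placeUnitsMod (hp2 : p ≠ 2) {N H : Subgroup GQ} (hN : (LT T).IsLevel N) (hle : N ≤ H)
    (hμ : FixesMu p H) (v : Place) (w : PlacesAbove v H) :
    Nat.card (placeUnitsMod p v H w) = p ^ placeExp p v H w := by
  cases v with
  | none =>
    show _ = p ^ 0
    rw [pow_zero, Nat.card_eq_one_iff_unique]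
    refine ⟨⟨fun a b => ?_⟩, ⟨1⟩⟩
    suffices h : ∀ x : placeUnitsMod p none H w, x = 1 by rw [h a, h b]
    intro x
    obtain ⟨x, rfl⟩ := QuotientGroup.mk_surjective x
    refine (QuotientGroup.eq_one_iff x).mpr ?_
    obtain ⟨z, hz⟩ := IsAlgClosed.exists_pow_nat_eq ((x : ℚbˣ) : ℚb) hpf.out.pos
    have hz0 : z ≠ 0 := fun h => (x : ℚbˣ).ne_zero (by rw [← hz, h, zero_pow hpf.out.ne_zero])
    refine ⟨⟨Units.mk0 z hz0, fun h hh => ?_⟩, Subtype.ext (Units.ext (by simpa using hz))⟩
    have hbot : placeGroup none H w = ⊥ := placeGroup_none hp2 hμ w.out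
    have h1 : (show decomp none from h) = 1 := Subgroup.mem_bot.mp (hbot ▸ hh)
    show ((show decomp none from h) : GQ) • Units.mk0 z hz0 = _
    rw [h1]
    exact one_smul _ _
  | some q =>
    exact card_local_powers p q (placeGroup (some q) H w) (placeGroup_isOpen hN hle _ _)
      fun h hh μ hμ1 => placeGroup_fixesMu hμ (some q) w.out h hh μ hμ1

/-- The exponents add up to twice the number of places. -/
theorem sum_placeExp (hp2 : p ≠ 2) (hT : (⟨p, Fact.out⟩ : Nat.Primes) ∈ T) {H : Subgroup GQ}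
    [H.FiniteIndex] (hμ : FixesMu p H) :
    ∑ v ∈ placesOf T, ∑ᶠ w : PlacesAbove v H, placeExp p v H w =
      2 * ∑ v ∈ placesOf T, Nat.card (PlacesAbove v H) := by
  classical
  have hfin : ∀ q : Nat.Primes, ∑ᶠ w : PlacesAbove (some q) H, placeExp p (some q) H w =
      2 * Nat.card (PlacesAbove (some q) H) + if (q : ℕ) = p then H.index else 0 := fun q => by
    haveI := finite_placesAbove (some q) H
    haveI := Fintype.ofFinite (PlacesAbove (some q) H)
    rw [finsum_eq_sum_of_fintype]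
    show ∑ w : PlacesAbove (some q) H, (2 + localExp p (some q) (placeGroup (some q) H w)) = _
    rw [Finset.sum_add_distrib, Finset.sum_const, smul_eq_mul, Finset.card_univ,
      Nat.card_eq_fintype_card, mul_comm]
    congr 1
    simp only [localExp]
    split_ifs with h
    · rw [index_eq_sum_placeGroup (some q) H, finsum_eq_sum_of_fintype]
      rfl
    · exact Finset.sum_const_zero
  unfold placesOf
  rw [Finset.sum_insertNone, Finset.sum_insertNone, Finset.sum_congr rfl fun q _ => hfin q,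
    Finset.sum_add_distrib, mul_add, ← index_eq_two_mul_places hp2 H hμ, ← Finset.mul_sum]
  have h0 : ∑ᶠ w : PlacesAbove none H, placeExp p none H w = 0 := finsum_zero
  have hs : (∑ q ∈ T, if (q : ℕ) = p then H.index else 0) = H.index :=
    (Finset.sum_eq_single_of_mem (⟨p, Fact.out⟩ : Nat.Primes) hT
      fun q _ hq => if_neg fun h => hq (Subtype.ext h)).trans (if_pos rfl)
  rw [h0, zero_add, hs]
  exact add_comm _ _

variable (p) (T)

/-- The fixed ideles with units away from `T`. -/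
def unitIdeles (H : Subgroup GQ) : AddSubgroup (Additive (idele T)) where
  carrier := {f | (∀ h ∈ H, lt T h • f = f) ∧ IsUnitsOutside f}
  zero_mem' := ⟨fun h _ => smul_zero _, fun _ _ _ => one_mem _⟩
  add_mem' := fun hx hy => ⟨fun h hh => by rw [smul_add, hx.1 h hh, hy.1 h hh],
    fun q hq g => mul_mem (hx.2 q hq g) (hy.2 q hq g)⟩
  neg_mem' := fun hx => ⟨fun h hh => by rw [smul_neg, hx.1 h hh],
    fun q hq g => inv_mem (hx.2 q hq g)⟩

variable {p} {T}

theorem eval_mem_fixedUnits {H : Subgroup GQ} {f : Additive (idele T)}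
    (hf : f ∈ unitIdeles T H) (v : Place) (w : PlacesAbove v H) :
    f.toMul.1 v w.out ∈ fixedUnits (v := v) (placeGroup v H w) := by
  intro d hd
  show ((show decomp v from d) : GQ) • f.toMul.1 v w.out = _
  have hd' : w.out⁻¹ * ((show decomp v from d) : GQ) * w.out⁻¹⁻¹ ∈ H := hd
  have h1 := congrArg (evalAt v w.out) (hf.1 _ hd')
  rw [evalAt_lt, inv_inv, ← mul_assoc, ← mul_assoc, mul_inv_cancel, one_mul,
    evalAt_decomp v (show decomp v from d).2] at h1
  exact congrArg Additive.toMul h1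

variable (p) (T)

/-- The local components modulo powers. -/
def localComponents (H : Subgroup GQ) :
    unitIdeles T H →+ Additive (∀ v : placesOf T, ∀ w : PlacesAbove v.1 H, placeUnitsMod p v.1 H w) where
  toFun f := Additive.ofMul fun v w => QuotientGroup.mk
    (⟨f.1.toMul.1 v.1 w.out, eval_mem_fixedUnits f.2 v.1 w⟩ : fixedUnits (v := v.1) (placeGroup v.1 H w))
  map_zero' := rfl
  map_add' _ _ := rfl

variable {p} {T}

omit hpf in
/-- Roots at the places over `T` glue to a fixed function. -/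
theorem exists_root_fun {H : Subgroup GQ} (f : unitIdeles T H)
    (hf : f ∈ (localComponents p T H).ker) :
    ∃ B : Place → GQ → ℚbˣ,
      (∀ (v : Place) (d : decomp v) (g : GQ), B v ((d : GQ) * g) = (d : GQ) • B v g) ∧
      (∀ (v : Place) (g k : GQ), k ∈ H → B v (g * k) = B v g) ∧
      (∀ v ∉ placesOf T, ∀ g, B v g = 1) ∧
      (∀ v ∈ placesOf T, ∀ g, B v g ^ p = f.1.toMul.1 v g) := by
  classical
  have hroot : ∀ (v : Place) (r : GQ), ∃ z : ℚbˣ, v ∈ placesOf T →
      dRep (decomp v) H r = r → z ^ p = f.1.toMul.1 v r ∧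
        ∀ d ∈ locSub (decomp v) H r, d • z = z := by
    intro v r
    by_cases hv : v ∈ placesOf T
    swap
    · exact ⟨1, fun h => absurd h hv⟩
    by_cases hr : dRep (decomp v) H r = r
    swap
    · exact ⟨1, fun _ h => absurd h hr⟩
    let w : PlacesAbove v H := DoubleCoset.mk (decomp v) H r
    have h1 : (QuotientGroup.mk (⟨f.1.toMul.1 v w.out, eval_mem_fixedUnits f.2 v w⟩ :
        fixedUnits (v := v) (placeGroup v H w)) : placeUnitsMod p v H w) = 1 :=
      congrFun (congrFun (congrArg Additive.toMul (AddMonoidHom.mem_ker.mp hf)) ⟨v, hv⟩) w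
    obtain ⟨z, hz⟩ := (QuotientGroup.eq_one_iff _).mp h1
    have hwr : w.out = r := hr
    refine ⟨z.1, fun _ _ => ⟨?_, fun d hd => z.2 d ?_⟩⟩
    · rw [← hwr]; exact congrArg Subtype.val hz
    · show d ∈ locSub (decomp v) H w.out
      rw [hwr]; exact hd
  choose z hz using hroot
  have hglue : ∀ v, ∃ B : GQ → Additive ℚbˣ, ∀ (d : decomp v) (g : GQ) (k : H),
      B ((d : GQ) * dRep (decomp v) H g * (k : GQ)) =
        (d : GQ) • Additive.ofMul (if v ∈ placesOf T then z v (dRep (decomp v) H g) else 1) := by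
    intro v
    obtain ⟨B, hB⟩ := exists_glue (D := decomp v) (A := Additive ℚbˣ) (H := H)
      (fun r _ => if dRep (decomp v) H r = r ∧ v ∈ placesOf T then Additive.ofMul (z v r) else 0)
      (fun r e k => by
        split_ifs with hr
        · exact congrArg Additive.ofMul ((hz v r hr.2 hr.1).2 _ e.2).symm
        · exact (smul_zero _).symm)
    refine ⟨B, fun d g k => ?_⟩
    rw [hB, dRep_dRep H g]
    refine congrArg (fun x : Additive ℚbˣ => (d : GQ) • x) ?_
    by_cases hv : v ∈ placesOf T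
    · rw [if_pos ⟨rfl, hv⟩, if_pos hv]
    · rw [if_neg fun h => hv h.2, if_neg hv]
      rfl
  choose B hB using hglue
  refine ⟨fun v g => (B v g).toMul, fun v d g => ?_, fun v g k hk => ?_, fun v hv g => ?_,
    fun v hv g => ?_⟩
  · obtain ⟨d', k, hg⟩ := exists_eq_dRep (D := decomp v) H g
    refine congrArg Additive.toMul (?_ : B v ((d : GQ) * g) = (d : GQ) • B v g)
    conv_lhs => rw [hg, ← mul_assoc, ← mul_assoc, ← Subgroup.coe_mul, hB]
    conv_rhs => rw [hg, hB]
    rw [Subgroup.coe_mul, mul_smul]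
  · obtain ⟨d', k', hg⟩ := exists_eq_dRep (D := decomp v) H g
    refine congrArg Additive.toMul (?_ : B v (g * k) = B v g)
    conv_lhs => rw [hg, mul_assoc, show (k' : GQ) * k = ((k' * ⟨k, hk⟩ : H) : GQ) from rfl, hB]
    conv_rhs => rw [hg, hB]
  · obtain ⟨d', k', hg⟩ := exists_eq_dRep (D := decomp v) H g
    show (B v g).toMul = 1
    rw [hg, hB, if_neg hv]
    exact congrArg Additive.toMul (smul_zero (d' : GQ) : (d' : GQ) • (0 : Additive ℚbˣ) = 0)
  · obtain ⟨d, k, hg⟩ := exists_eq_dRep (D := decomp v) H g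
    show (B v g).toMul ^ p = _
    rw [hg, hB, if_pos hv]
    show ((d : GQ) • z v (dRep (decomp v) H g)) ^ p = _
    rw [← smul_pow', (hz v _ hv (dRep_dRep H g)).1]
    have h2 := congrArg (evalAt v ((d : GQ) * dRep (decomp v) H g)) (f.2.1 (k : GQ) k.2)
    rw [evalAt_lt, evalAt_decomp v d.2] at h2
    exact (congrArg Additive.toMul h2).symm

/-- Classes of fixed unit ideles without local components are powers. -/
theorem exists_root_class {H N : Subgroup GQ} (hN : (LT T).IsLevel N) (hle : N ≤ H)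
    (f : unitIdeles T H) (hf : f ∈ (localComponents p T H).ker) :
    ∃ y ∈ unitIdeles T H, p • classHom T y = classHom T f.1 := by
  classical
  obtain ⟨B, hBd, hBk, hB0, hBp⟩ := exists_root_fun f hf
  have hym : B ∈ idele T := by
    refine ⟨fun v d hd g => hBd v ⟨d, hd⟩ g, ⟨N, hN, fun v g s hs => hBk v g s (hle hs)⟩,
      T.finite_toSet.subset fun q ⟨g, hg⟩ => ?_⟩
    by_contra hq
    rw [hB0 _ (fun h => hq (mem_placesOf_some.mp h))] at hg
    exact hg (one_mem _)
  let y : Additive (idele T) := Additive.ofMul ⟨B, hym⟩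
  have hy : y ∈ unitIdeles T H := ⟨fun h hh => idele_ext fun v g =>
    congrArg Additive.ofMul (hBk v g h hh), fun q hq g => by
      show B (some q) g ∈ _
      rw [hB0 _ (fun h => hq (mem_placesOf_some.mp h))]
      exact one_mem _⟩
  refine ⟨y, hy, ?_⟩
  rw [← map_nsmul, ← sub_eq_zero, ← map_sub]
  refine classHom_eq_zero_of 0 hN (fun s _ => smul_zero s) (fun v hv g => ?_) ?_
    (fun q _ g => by rw [toMul_zero, smul_one]; exact one_mem _)
  · rw [smul_zero, map_sub, map_nsmul, sub_eq_zero]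
    exact Additive.toMul.injective (hBp v hv g)
  · intro q hq g
    show (p • y - f.1).toMul.1 (some q) g ∈ _
    rw [toMul_sub, div_eq_mul_inv, toMul_nsmul]
    exact mul_mem (pow_mem (hy.2 q hq g) p) (inv_mem (f.2.2 q hq g))

theorem diag_mem_idele {H N : Subgroup GQ} (hN : (LT T).IsLevel N) (hle : N ≤ H)
    (x : sUnits T H) : diag (x : ℚbˣ) ∈ idele T := by
  refine ⟨fun v d _ g => mul_smul d g _, ⟨N, hN, fun v g s hs => ?_⟩,
    T.finite_toSet.subset fun q ⟨g, hg⟩ => ?_⟩
  · show (g * s) • (x : ℚbˣ) = g • (x : ℚbˣ)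
    rw [mul_smul, x.2.1 s (hle hs)]
  · by_contra hq
    exact hg (x.2.2 q hq g)

omit hpf in
/-- Principal unit ideles. -/
def sUnitIdele {H N : Subgroup GQ} (hN : (LT T).IsLevel N) (hle : N ≤ H) :
    Additive (sUnits T H) →+ unitIdeles T H where
  toFun x := ⟨Additive.ofMul (⟨_, diag_mem_idele hN hle x.toMul⟩ : idele T),
    fun h hh => idele_ext fun v g => by
      rw [evalAt_lt]
      refine congrArg Additive.ofMul ?_
      show (g * h) • (x.toMul : ℚbˣ) = g • (x.toMul : ℚbˣ)
      rw [mul_smul, x.toMul.2.1 h hh],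
    fun q hq g => x.toMul.2.2 q hq g⟩
  map_zero' := Subtype.ext (congrArg Additive.ofMul (Subtype.ext (map_one diag)))
  map_add' a b := Subtype.ext (congrArg Additive.ofMul (Subtype.ext
    (map_mul diag (a.toMul : ℚbˣ) b.toMul)))

theorem classHom_sUnitIdele {H N : Subgroup GQ} (hN : (LT T).IsLevel N) (hle : N ≤ H)
    (x : Additive (sUnits T H)) : classHom T (sUnitIdele hN hle x).1 = 0 :=
  classHom_eq_zero_of (Additive.ofMul (x.toMul : ℚbˣ)) hN
    (fun s hs => congrArg Additive.ofMul (x.toMul.2.1 s (hle hs))) (fun v _ g => rfl)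
    (sUnitIdele hN hle x).2.2 (fun q hq g => x.toMul.2.2 q hq g)

/-- An `S`-unit without local components is a power. -/
theorem mem_powers_of_sUnitIdele_ker (hp2 : p ≠ 2) (hT : (⟨p, Fact.out⟩ : Nat.Primes) ∈ T) {H N : Subgroup GQ}
    (hN : (LT T).IsLevel N) (hle : N ≤ H) (hμ : FixesMu p H) (hbig : IsBig T N)
    (x : Additive (sUnits T H))
    (hx : sUnitIdele hN hle x ∈ (localComponents p T H).ker) :
    x.toMul ∈ powers p (sUnits T H) := by
  refine sUnit_mem_powers_of_locally hp2 hT (N := N) hN hbig H hle hμ x.toMul fun v hv g => ?_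
  obtain ⟨d, k, hg⟩ := exists_eq_dRep (D := decomp v) H g
  set r := dRep (decomp v) H g
  have h1 := congrFun (congrFun (congrArg Additive.toMul (AddMonoidHom.mem_ker.mp hx)) ⟨v, hv⟩)
    (DoubleCoset.mk (decomp v) H g)
  obtain ⟨z, hz⟩ := (QuotientGroup.eq_one_iff _).mp h1
  have hzr : (z : ℚbˣ) ^ p = r • (x.toMul : ℚbˣ) := congrArg Subtype.val hz
  refine ⟨((k : GQ)⁻¹ * r⁻¹) • (z : ℚbˣ), ?_, fun h hh hd => ?_⟩
  · rw [← smul_pow', hzr, mul_smul, inv_smul_smul]
    exact x.toMul.2.1 _ (H.inv_mem k.2)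
  · have hd1 : r * ((k : GQ) * h * (k : GQ)⁻¹) * r⁻¹ ∈ decomp v := by
      have h2 := mul_mem (mul_mem (inv_mem d.2) hd) d.2
      rw [hg] at h2
      convert h2 using 1
      group
    have hfix : (⟨_, hd1⟩ : decomp v) • (z : ℚbˣ) = z := z.2 ⟨_, hd1⟩ (by
      show r⁻¹ * (r * ((k : GQ) * h * (k : GQ)⁻¹) * r⁻¹) * r⁻¹⁻¹ ∈ H
      convert H.mul_mem (H.mul_mem k.2 hh) (H.inv_mem k.2) using 1
      group)
    change (r * ((k : GQ) * h * (k : GQ)⁻¹) * r⁻¹) • (z : ℚbˣ) = z at hfix
    rw [← mul_smul]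
    conv_rhs => rw [← hfix, ← mul_smul]
    congr 1
    group

omit hpf in
theorem nsmul_placeUnitsMod_eq_zero {H : Subgroup GQ}
    (z : Additive (∀ v : placesOf T, ∀ w : PlacesAbove v.1 H, placeUnitsMod p v.1 H w)) :
    p • z = 0 := by
  refine Additive.toMul.injective (funext fun v => funext fun w => ?_)
  show (z.toMul v w) ^ p = 1
  obtain ⟨a, ha⟩ := QuotientGroup.mk_surjective (z.toMul v w)
  rw [← ha, ← QuotientGroup.mk_pow]
  exact (QuotientGroup.eq_one_iff _).mpr ⟨a, rfl⟩

/-- The image of the `S`-units in the local components is as large as possible. -/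
theorem card_range_sUnitIdele (hp2 : p ≠ 2) (hT : (⟨p, Fact.out⟩ : Nat.Primes) ∈ T)
    {H N : Subgroup GQ} (hN : (LT T).IsLevel N) (hle : N ≤ H) (hμ : FixesMu p H)
    (hbig : IsBig T N) :
    Nat.card ((QuotientAddGroup.mk' (localComponents p T H).ker).comp (sUnitIdele hN hle)).range =
      p ^ ∑ v ∈ placesOf T, Nat.card (PlacesAbove v H) := by
  set e := (QuotientAddGroup.mk' (localComponents p T H).ker).comp (sUnitIdele hN hle)
  have heq : e.ker = (powers p (sUnits T H)).toAddSubgroup := by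
    refine le_antisymm (fun x hx => mem_powers_of_sUnitIdele_ker hp2 hT hN hle hμ hbig x
      ((QuotientAddGroup.eq_zero_iff _).mp hx)) ?_
    rintro x ⟨y, hy⟩
    have hxy : x = p • Additive.ofMul y := hy.symm
    refine AddMonoidHom.mem_ker.mpr ?_
    rw [hxy, map_nsmul]
    refine (QuotientAddGroup.eq_zero_iff _).mpr ?_
    show p • sUnitIdele hN hle (Additive.ofMul y) ∈ (localComponents p T H).ker
    rw [AddMonoidHom.mem_ker, map_nsmul]
    exact nsmul_placeUnitsMod_eq_zero _
  rw [← AddSubgroup.index_ker, heq, Subgroup.index_toAddSubgroup, ← card_sUnits_mod p T hp2 H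
    ⟨N, hN, hle⟩ hμ]
  rfl

theorem finite_quotient_ker {A B : Type} [AddGroup A] [AddGroup B] [Finite B] (f : A →+ B) :
    Finite (A ⧸ f.ker) ∧ Nat.card (A ⧸ f.ker) ≤ Nat.card B :=
  ⟨Finite.of_injective _ (QuotientAddGroup.kerLift_injective f),
    Nat.card_le_card_of_injective _ (QuotientAddGroup.kerLift_injective f)⟩

/-- Fixed classes modulo `p` are no more than the places over `T` allow. -/
theorem card_fixedClasses_mod_le (hp2 : p ≠ 2) (hT : (⟨p, Fact.out⟩ : Nat.Primes) ∈ T)
    (H N : Subgroup (LT T).G) (hN : (LT T).IsLevel N) (hle : N ≤ H) (hμ : FixesMu p H)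
    (hbig : IsBig T N) :
    Finite (fixedClasses T H ⧸ (nsmulAddMonoidHom p : fixedClasses T H →+ fixedClasses T H).range) ∧
      Nat.card (fixedClasses T H ⧸
          (nsmulAddMonoidHom p : fixedClasses T H →+ fixedClasses T H).range) ≤
        p ^ ∑ v ∈ placesOf T, Nat.card (PlacesAbove v H) := by
  classical
  let H₀ : Subgroup GQ := H
  let N₀ : Subgroup GQ := N
  haveI : H₀.FiniteIndex := finiteIndex_of_level_le (N := N₀) hN hle
  set Φ := localComponents p T H₀ with hΦ
  haveI : ∀ v : placesOf T, Finite (PlacesAbove v.1 H₀) := fun v => finite_placesAbove v.1 H₀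
  haveI : ∀ (v : placesOf T) (w : PlacesAbove v.1 H₀), Finite (placeUnitsMod p v.1 H₀ w) :=
    fun v w => Nat.finite_of_card_ne_zero (by
      rw [card_placeUnitsMod hp2 (N := N₀) hN hle hμ]
      exact pow_ne_zero _ hpf.out.ne_zero)
  haveI := fun v : placesOf T => Fintype.ofFinite (PlacesAbove v.1 H₀)
  have hcard : Nat.card (Additive (∀ v : placesOf T, ∀ w : PlacesAbove v.1 H₀, placeUnitsMod p v.1 H₀ w)) =
      p ^ (2 * ∑ v ∈ placesOf T, Nat.card (PlacesAbove v H₀)) := by
    rw [Nat.card_congr Additive.toMul, Nat.card_pi, ← sum_placeExp hp2 hT hμ,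
      ← Finset.prod_pow_eq_pow_sum,
      ← Finset.prod_coe_sort (placesOf T) fun v => p ^ ∑ᶠ w : PlacesAbove v H₀, placeExp p v H₀ w]
    refine Finset.prod_congr rfl fun v _ => ?_
    rw [Nat.card_pi, finsum_eq_sum_of_fintype, ← Finset.prod_pow_eq_pow_sum]
    exact Finset.prod_congr rfl fun w _ => card_placeUnitsMod hp2 (N := N₀) hN hle hμ v.1 w
  -- the map to the classes
  set P := (nsmulAddMonoidHom p : fixedClasses T H →+ fixedClasses T H).range
  have hfixc : ∀ f ∈ unitIdeles T H₀, classHom T f ∈ fixedClasses T H := fun f hf h hh =>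
    (classHom_smul (T := T) h f).symm.trans (congrArg (classHom T) (hf.1 h hh))
  let toC : unitIdeles T H₀ →+ fixedClasses T H :=
    { toFun := fun f => ⟨classHom T f.1, hfixc f.1 f.2⟩
      map_zero' := Subtype.ext (map_zero _)
      map_add' := fun _ _ => Subtype.ext (map_add _ _ _) }
  let Ψ := (QuotientAddGroup.mk' P).comp toC
  have hsurj : Function.Surjective Ψ := fun x => by
    obtain ⟨c, rfl⟩ := QuotientAddGroup.mk'_surjective P x
    obtain ⟨f, hf, hfc, hfu⟩ := exists_unit_lift hN hbig H hle c.1 c.2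
    exact ⟨⟨f, fun h hh => hf h hh, hfu⟩, congrArg (QuotientAddGroup.mk' P) (Subtype.ext hfc)⟩
  have hker : Φ.ker ≤ Ψ.ker := fun f hf => by
    obtain ⟨y, hy, e⟩ := exists_root_class (N := N₀) hN hle f hf
    exact (QuotientAddGroup.eq_zero_iff _).mpr ⟨⟨classHom T y, hfixc y hy⟩, Subtype.ext e⟩
  let g := QuotientAddGroup.lift Φ.ker Ψ hker
  have hgsurj : Function.Surjective g := fun x => by
    obtain ⟨f, rfl⟩ := hsurj x
    exact ⟨QuotientAddGroup.mk f, rfl⟩
  haveI : Finite (Additive (∀ v : placesOf T, ∀ w : PlacesAbove v.1 H₀, placeUnitsMod p v.1 H₀ w)) :=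
    Finite.of_equiv _ Additive.ofMul
  obtain ⟨hfinQ, hleQ⟩ := finite_quotient_ker (A := unitIdeles T H₀)
    (B := Additive (∀ v : placesOf T, ∀ w : PlacesAbove v.1 H₀, placeUnitsMod p v.1 H₀ w)) Φ
  haveI hfinC : Finite (fixedClasses T H ⧸ P) := Finite.of_surjective g hgsurj
  refine ⟨hfinC, ?_⟩
  have hU : p ^ (∑ v ∈ placesOf T, Nat.card (PlacesAbove v H₀)) ≤ Nat.card g.ker := by
    rw [← card_range_sUnitIdele hp2 hT (N := N₀) hN hle hμ hbig]
    refine AddSubgroup.card_le_of_le ?_
    rintro x ⟨y, rfl⟩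
    show Ψ (sUnitIdele hN hle y) = 0
    refine (QuotientAddGroup.eq_zero_iff _).mpr ?_
    rw [show toC (sUnitIdele hN hle y) = 0 from Subtype.ext (classHom_sUnitIdele hN hle y)]
    exact zero_mem _
  have hmul : Nat.card g.ker * Nat.card g.range = Nat.card (unitIdeles T H₀ ⧸ Φ.ker) := by
    rw [← AddSubgroup.index_ker g, AddSubgroup.card_mul_index]
  rw [AddMonoidHom.range_eq_top.mpr hgsurj, AddSubgroup.card_top] at hmul
  have hQ : Nat.card (unitIdeles T H₀ ⧸ Φ.ker) ≤
      p ^ (2 * ∑ v ∈ placesOf T, Nat.card (PlacesAbove v H₀)) :=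
    hleQ.trans hcard.le
  refine Nat.le_of_mul_le_mul_left ?_ (pow_pos hpf.out.pos
    (∑ v ∈ placesOf T, Nat.card (PlacesAbove v H₀)))
  calc _ ≤ Nat.card g.ker * Nat.card (fixedClasses T H ⧸ P) := Nat.mul_le_mul_right _ hU
    _ ≤ _ := hmul.trans_le (hQ.trans (by rw [two_mul, pow_add]))

end Fermat.Agent.GD
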