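import Fermat.Agent.GD.Bases.Euler.Dual
import Fermat.Agent.GD.Engine.Euler
import Fermat.Agent.GD.Local

/-!
# Kummer theory at a level of index prime to `p`
-/

set_option autoImplicit false
set_option linter.style.haveILetI false
set_option linter.unusedSectionVars false

noncomputable section

namespace Fermat.Agent.GD

local notation "ℚb" => AlgebraicClosure ℚ
local notation "Cu" => Additive (AlgebraicClosure ℚ)ˣ

variable {p : ℕ} [hpf : Fact p.Prime] {L : LevelGroup.{0}}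
variable {M : Type} [AddCommGroup M] [DistribMulAction L.G M]

theorem exists_level_finset {α : Type} {P : α → L.G → Prop} (S : Finset α)
    (h : ∀ a ∈ S, ∃ N, L.IsLevel N ∧ ∀ s ∈ N, P a s) :
    ∃ N, L.IsLevel N ∧ ∀ a ∈ S, ∀ s ∈ N, P a s := by
  classical
  induction S using Finset.induction with
  | empty =>
    obtain ⟨N, hN⟩ := L.exists_level
    exact ⟨N, hN, by simp⟩
  | insert a S _ ih =>
    obtain ⟨N, hN, ha⟩ := h a (Finset.mem_insert_self _ _)
    obtain ⟨N', hN', hS⟩ := ih fun b hb => h b (Finset.mem_insert_of_mem hb)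
    refine ⟨N ⊓ N', L.inf N N' hN hN', fun b hb s hs => ?_⟩
    rcases Finset.mem_insert.mp hb with rfl | hb
    · exact ha s hs.1
    · exact hS b hb s hs.2

variable (M) in
/-- Equivariant continuous homomorphisms of a normal subgroup. -/
def eqHoms {N : Subgroup L.G} (hn : N.Normal) (H : Subgroup L.G) : AddSubgroup (N → M) where
  carrier := {χ | (∀ a b, χ (a * b) = χ a + χ b) ∧
    (∃ N', L.IsLevel N' ∧ ∀ n : N, (n : L.G) ∈ N' → χ n = 0) ∧
    ∀ (g : L.G), g ∈ H → ∀ n : N, χ ⟨g * n * g⁻¹, hn.conj_mem n n.2 g⟩ = g • χ n}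
  zero_mem' := ⟨fun _ _ => (add_zero _).symm,
    ⟨_, L.exists_level.choose_spec, fun _ _ => rfl⟩, fun g _ _ => (smul_zero g).symm⟩
  add_mem' := fun {χ χ'} ha hb => by
    obtain ⟨N₁, hN₁, h1⟩ := ha.2.1
    obtain ⟨N₂, hN₂, h2⟩ := hb.2.1
    exact ⟨fun a b => by simp only [Pi.add_apply, ha.1, hb.1]; abel,
      ⟨_, L.inf N₁ N₂ hN₁ hN₂, fun n hn' => by
        rw [Pi.add_apply, h1 n hn'.1, h2 n hn'.2, add_zero]⟩,
      fun g hg n => by simp only [Pi.add_apply, ha.2.2 g hg, hb.2.2 g hg, smul_add]⟩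
  neg_mem' := fun {χ} ha => by
    obtain ⟨N₁, hN₁, h1⟩ := ha.2.1
    exact ⟨fun a b => by simp only [Pi.neg_apply, ha.1]; abel,
      ⟨N₁, hN₁, fun n hn' => by rw [Pi.neg_apply, h1 n hn', neg_zero]⟩,
      fun g hg n => by simp only [Pi.neg_apply, ha.2.2 g hg, smul_neg]⟩

/-- Restriction identifies the first cohomology with the equivariant homomorphisms. -/
theorem h1_sub_equiv [Finite M] {H N : Subgroup L.G} (hN : L.IsLevel N) (hle : N ≤ H)
    (hidx : ¬ p ∣ (N.subgroupOf H).index) (hp : ∀ m : M, p • m = 0)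
    (hMN : ∀ s ∈ N, ∀ m : M, s • m = m) :
    Nonempty ((L.sub H).H1 M ≃ eqHoms M (L.normal N hN) H) := by
  classical
  have hn := L.normal N hN
  set N' : Subgroup (L.sub H).G := N.subgroupOf H
  have hN' : (L.sub H).IsLevel N' := ⟨N, hN, rfl⟩
  have ho : (L.sub H).IsOpen N' := ⟨N', hN', le_rfl⟩
  have hcop : N'.index.Coprime p := (hpf.out.coprime_iff_not_dvd.mpr hidx).symm
  have hres : ∀ x : (L.sub H).Z1 M, (fun n : N => x.1 ⟨n, hle n.2⟩) ∈ eqHoms M hn H := fun x => by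
    obtain ⟨⟨_, ⟨N₀, hN₀, rfl⟩, hx0⟩, hxc⟩ := x.2
    have h1 : x.1 1 = 0 := by simpa using hxc 1 1
    refine ⟨fun a b => ?_, ⟨N₀, hN₀, fun n hn' => ?_⟩, fun g hg n => ?_⟩
    · refine (hxc ⟨a, hle a.2⟩ ⟨b, hle b.2⟩).trans ?_
      exact congrArg (x.1 ⟨a, hle a.2⟩ + ·) (hMN _ a.2 _)
    · have := hx0 1 ⟨n, hle n.2⟩ hn'
      rwa [one_mul, h1] at this
    · let g' : (L.sub H).G := ⟨g, hg⟩
      let n' : (L.sub H).G := ⟨n, hle n.2⟩
      show x.1 (g' * n' * g'⁻¹) = g • x.1 n'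
      have h2 := hxc g' g'⁻¹
      rw [mul_inv_cancel, h1] at h2
      rw [hxc, hxc, mul_smul, show n' • x.1 g'⁻¹ = x.1 g'⁻¹ from hMN _ n.2 _]
      show x.1 g' + g • x.1 n' + g' • x.1 g'⁻¹ = _
      rw [add_right_comm, ← h2, zero_add]
  let R : (L.sub H).Z1 M →+ eqHoms M hn H :=
    AddMonoidHom.mk' (fun x => ⟨_, hres x⟩) fun _ _ => rfl
  have hker : ((L.sub H).B1 M).addSubgroupOf ((L.sub H).Z1 M) = R.ker := by
    refine le_antisymm (fun x hx => ?_) fun x hx => ?_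
    · obtain ⟨m, hm⟩ := hx
      refine AddMonoidHom.mem_ker.mpr (Subtype.ext (funext fun n => ?_))
      refine (congrFun hm ⟨n, hle n.2⟩).symm.trans ?_
      show (n : L.G) • m - m = 0
      rw [hMN _ n.2, sub_self]
    · refine mem_B1_of_index ho hcop hp x.2.2 ?_
      convert zero_mem (((L.sub H).sub N').B1 M) using 1
      exact funext fun h =>
        congrFun (congrArg Subtype.val (AddMonoidHom.mem_ker.mp hx)) ⟨(h : N').1.1, (h : N').2⟩
  have hsurj : Function.Surjective R := by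
    rintro ⟨χ, hχ⟩
    obtain ⟨hadd, ⟨N₀, hN₀, hχ0⟩, heq⟩ := hχ
    let y : N' → M := fun a => χ ⟨(a.1 : H).1, a.2⟩
    have hy : y ∈ ((L.sub H).sub N').Z1 M := by
      refine ⟨⟨_, ⟨_, ⟨N₀, hN₀, rfl⟩, rfl⟩, fun a s hs => ?_⟩, fun a b => ?_⟩
      · show χ (⟨(a : N').1.1, (a : N').2⟩ * ⟨(s : N').1.1, (s : N').2⟩) = _
        refine (hadd _ _).trans ?_
        rw [hχ0 ⟨(s : N').1.1, (s : N').2⟩ hs]
        exact add_zero _
      · show χ (⟨(a : N').1.1, (a : N').2⟩ * ⟨(b : N').1.1, (b : N').2⟩) =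
          χ _ + (a : N').1.1 • χ _
        exact (hadd _ _).trans (congrArg _ (hMN _ (a : N').2 _).symm)
    obtain ⟨j, -, hj⟩ := Nat.exists_mul_mod_eq_one_of_coprime hcop hpf.out.one_lt
    refine ⟨j • ⟨cor₁ N' y, cor₁_mem_Z1 ho ⟨y, hy⟩⟩, Subtype.ext (funext fun n => ?_)⟩
    show j • cor₁ N' y (⟨n, hle n.2⟩ : (L.sub H).G) = χ n
    have := ho.finite_quotient
    have := Fintype.ofFinite ((L.sub H).G ⧸ N')
    rw [cor₁_apply, Finset.sum_congr rfl (g := fun _ => χ n) fun s _ => ?_, Finset.sum_const,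
      Finset.card_univ, ← Nat.card_eq_fintype_card, ← Subgroup.index_eq_card, smul_smul, mul_comm]
    · conv_lhs => rw [← Nat.mod_add_div (N'.index * j) p, hj]
      rw [add_smul, one_smul, mul_smul, hp, add_zero]
    · set g' : (L.sub H).G := ⟨n, hle n.2⟩
      have hs : g' • s = s := (L.sub H).smul_quot_of_mem hN' le_rfl (show g' ∈ N' from n.2) s
      rw [hs]
      show ((s.out : H) : L.G) • χ ⟨_, _⟩ = χ n
      have he : (((L.sub H).eta N' g' s : (L.sub H).G) : H).1 =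
          ((s.out : H) : L.G)⁻¹ * n * ((s.out : H) : L.G)⁻¹⁻¹ := by
        rw [(L.sub H).coe_eta, hs, inv_inv]
        rfl
      refine Eq.trans (congrArg (((s.out : H) : L.G) • ·)
        (((congrArg χ (Subtype.ext he)).trans (heq _ (H.inv_mem (s.out : H).2) n)))) ?_
      exact smul_inv_smul _ _
  exact ⟨((QuotientAddGroup.quotientAddEquivOfEq hker).trans
    (QuotientAddGroup.quotientKerEquivOfSurjective R hsurj)).toEquiv⟩

variable [MulDistribMulAction L.G ℚbˣ]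

/-- A group of units for Kummer theory at a level. -/
structure IsKummer (p : ℕ) (N : Subgroup L.G) (U : Subgroup ℚbˣ) : Prop where
  fix : ∀ u ∈ U, ∀ s ∈ N, s • u = u
  stab : ∀ (g : L.G), ∀ u ∈ U, g • u ∈ U
  sat : ∀ z : ℚbˣ, (∀ s ∈ N, s • z = z) → z ^ p ∈ U → z ∈ U
  mu : ∀ μ : ℚbˣ, μ ^ p = 1 → ∀ s ∈ N, s • μ = μ
  level : ∀ z : ℚbˣ, z ^ p ∈ U → ∃ N', L.IsLevel N' ∧ ∀ s ∈ N', s • z = z
  radical : ∀ χ : N → ℚbˣ, (∀ n, χ n ^ p = 1) → (∀ a b, χ (a * b) = χ a * χ b) →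
    (∃ N', L.IsLevel N' ∧ ∀ n : N, (n : L.G) ∈ N' → χ n = 1) →
    ∃ y : ℚbˣ, y ^ p ∈ U ∧ ∀ n : N, (n : L.G) • y = χ n * y

theorem IsKummer.class_iff {N : Subgroup L.G} {U : Subgroup ℚbˣ} (hK : IsKummer p N U)
    {y z : ℚbˣ} (hy : y ^ p ∈ U) (hz : z ^ p ∈ U) :
    (QuotientGroup.mk (⟨_, hy⟩ : U) : U ⧸ powers p U) = QuotientGroup.mk ⟨_, hz⟩ ↔
      ∀ n : N, (n : L.G) • (y / z) = y / z := by
  constructor
  · intro h n
    obtain ⟨⟨t, ht⟩, htp⟩ := QuotientGroup.eq_iff_div_mem.mp h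
    have htp' : t ^ p = y ^ p / z ^ p := congrArg Subtype.val htp
    have hμ : (y / z / t) ^ p = 1 := by rw [div_pow, div_pow, htp', div_self']
    calc (n : L.G) • (y / z) = (n : L.G) • (t * (y / z / t)) := by rw [mul_div_cancel]
      _ = t * (y / z / t) := by rw [smul_mul', hK.fix t ht n n.2, hK.mu _ hμ n n.2]
      _ = y / z := mul_div_cancel _ _
  · intro h
    have hzp : (y / z) ^ p ∈ U := by rw [div_pow]; exact div_mem hy hz
    refine QuotientGroup.eq_iff_div_mem.mpr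
      ⟨⟨y / z, hK.sat _ (fun s hs => h ⟨s, hs⟩) hzp⟩, Subtype.ext ?_⟩
    show (y / z) ^ p = y ^ p / z ^ p
    exact div_pow y z p

theorem smul_pow_mem {G : Type} [Group G] [MulDistribMulAction G ℚbˣ] {U : Subgroup ℚbˣ}
    (hU : ∀ (g : G), ∀ u ∈ U, g • u ∈ U) (g : G) {y : ℚbˣ} (hy : y ^ p ∈ U) :
    (g • y) ^ p ∈ U := by
  rw [← smul_pow']
  exact hU g _ hy

/-- Kummer theory. -/
theorem eqHoms_equiv [Finite M] {H N : Subgroup L.G} (hN : L.IsLevel N) {U : Subgroup ℚbˣ}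
    (hK : IsKummer p N U) (hp : ∀ m : M, p • m = 0) :
    Nonempty (eqHoms M (L.normal N hN) H ≃ HomModPowers p H U (CoDual M)) := by
  classical
  have hn := L.normal N hN
  haveI := CoDual.finite (p := p) hp
  haveI := Fintype.ofFinite (CoDual M)
  have hpow : ∀ (f : CoDual M) (m : M), (f.hom m).toMul ^ p = 1 := fun f m => by
    rw [← toMul_nsmul, ← map_nsmul, hp, map_zero]; rfl
  -- radicals of a homomorphism
  have hrad : ∀ (χ : eqHoms M hn H) (f : CoDual M),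
      ∃ y : ℚbˣ, y ^ p ∈ U ∧ ∀ n : N, (n : L.G) • y = (f.hom (χ.1 n)).toMul * y := fun χ f => by
    obtain ⟨N', hN', h0⟩ := χ.2.2.1
    exact hK.radical _ (fun n => hpow f _) (fun a b => by rw [χ.2.1, map_add, toMul_add])
      ⟨N', hN', fun n hn' => by rw [h0 n hn', map_zero]; rfl⟩
  choose yr hyU hyn using hrad
  let cls : {y : ℚbˣ // y ^ p ∈ U} → Additive (U ⧸ powers p U) := fun y =>
    Additive.ofMul (QuotientGroup.mk ⟨_, y.2⟩)
  have hcls : ∀ y z, cls y = cls z ↔ ∀ n : N, (n : L.G) • (y.1 / z.1) = y.1 / z.1 := fun y z =>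
    Iff.trans ⟨fun h => Additive.ofMul.injective h, congrArg Additive.ofMul⟩ (hK.class_iff y.2 z.2)
  have hyadd : ∀ χ f f', cls ⟨yr χ (f + f'), hyU χ _⟩ =
      cls ⟨yr χ f, hyU χ f⟩ + cls ⟨yr χ f', hyU χ f'⟩ := fun χ f f' => by
    have hm : (yr χ f * yr χ f') ^ p ∈ U := by rw [mul_pow]; exact mul_mem (hyU _ _) (hyU _ _)
    refine Eq.trans ((hcls _ ⟨_, hm⟩).mpr fun n => ?_) ?_
    · show (n : L.G) • (yr χ (f + f') / (yr χ f * yr χ f')) = _
      rw [smul_div', smul_mul', hyn, hyn, hyn,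
        show (f + f').hom (χ.1 n) = f.hom (χ.1 n) + f'.hom (χ.1 n) from rfl, toMul_add,
        mul_mul_mul_comm ((f.hom (χ.1 n)).toMul), mul_div_mul_left_eq_div]
    · refine congrArg Additive.ofMul (Eq.trans (congrArg QuotientGroup.mk
        (Subtype.ext (mul_pow _ _ _) : (⟨_, hm⟩ : U) = ⟨_, hyU χ f⟩ * ⟨_, hyU χ f'⟩))
        (QuotientGroup.mk_mul _ _ _))
  have hyeq : ∀ χ, ∀ h ∈ H, ∀ f, cls ⟨yr χ (h • f), hyU χ _⟩ =
      cls ⟨h • yr χ f, smul_pow_mem hK.stab h (hyU χ f)⟩ := fun χ h hh f => (hcls _ _).mpr fun n => by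
    show (n : L.G) • (yr χ (h • f) / h • yr χ f) = _
    let n' : N := ⟨h⁻¹ * n * h⁻¹⁻¹, hn.conj_mem n n.2 h⁻¹⟩
    have e : (n : L.G) • h • yr χ f = h • ((n' : L.G) • yr χ f) := by
      rw [← mul_smul, ← mul_smul]
      congr 1
      show _ = h * (h⁻¹ * n * h⁻¹⁻¹)
      group
    rw [smul_div', hyn, e, hyn χ f n', smul_mul', χ.2.2.2 _ (H.inv_mem hh) n, CoDual.smul_apply]
    exact mul_div_mul_left_eq_div _ _ _
  let F : eqHoms M hn H → HomModPowers p H U (CoDual M) := fun χ =>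
    ⟨AddMonoidHom.mk' (fun f => cls ⟨yr χ f, hyU χ f⟩) (hyadd χ), fun h hh f x y hx hy => by
      show cls ⟨yr χ (h • f), hyU χ _⟩ = _
      rw [hyeq χ h hh f]
      obtain ⟨⟨t, ht⟩, htp⟩ := QuotientGroup.eq_iff_div_mem.mp (Additive.ofMul.injective hx)
      refine congrArg Additive.ofMul (QuotientGroup.eq_iff_div_mem.mpr
        ⟨⟨h • t, hK.stab h t ht⟩, Subtype.ext ?_⟩)
      show (h • t) ^ p = (h • yr χ f) ^ p / (y : ℚbˣ)
      rw [hy, ← smul_pow', ← smul_pow', ← smul_div']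
      exact congrArg (h • ·) (congrArg Subtype.val htp)⟩
  -- the homomorphism of a map into classes
  have hroot : ∀ (φ : HomModPowers p H U (CoDual M)) (f : CoDual M),
      ∃ z : {y : ℚbˣ // y ^ p ∈ U}, cls z = φ.1 f := fun φ f => by
    obtain ⟨u, hu⟩ := QuotientGroup.mk_surjective (φ.1 f).toMul
    obtain ⟨r, hr⟩ := IsAlgClosed.exists_pow_nat_eq ((u : ℚbˣ) : ℚb) hpf.out.pos
    have hr0 : r ≠ 0 := fun h => (u : ℚbˣ).ne_zero (by rw [← hr, h, zero_pow hpf.out.ne_zero])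
    have he : Units.mk0 r hr0 ^ p = (u : ℚbˣ) := Units.ext (by simpa using hr)
    exact ⟨⟨Units.mk0 r hr0, he ▸ u.2⟩, congrArg Additive.ofMul
      ((congrArg QuotientGroup.mk (Subtype.ext he)).trans hu)⟩
  choose zr hzr using hroot
  let w : HomModPowers p H U (CoDual M) → N → CoDual M → Cu := fun φ n f =>
    Additive.ofMul (((n : L.G) • (zr φ f).1) / (zr φ f).1)
  have hwy : ∀ φ f (y : {y : ℚbˣ // y ^ p ∈ U}), cls y = φ.1 f → ∀ n : N,
      ((n : L.G) • y.1) / y.1 = (w φ n f).toMul := fun φ f y hy n => by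
    have h1 := (hcls y (zr φ f)).mp (hy.trans (hzr φ f).symm) n
    rw [smul_div', div_eq_div_iff_div_eq_div] at h1
    exact h1
  have hwadd : ∀ φ n f f', w φ n (f + f') = w φ n f + w φ n f' := fun φ n f f' => by
    have hm : ((zr φ f).1 * (zr φ f').1) ^ p ∈ U := by
      rw [mul_pow]; exact mul_mem (zr φ f).2 (zr φ f').2
    refine Additive.toMul.injective ?_
    rw [toMul_add, ← hwy φ (f + f') ⟨_, hm⟩ ?_ n]
    · show ((n : L.G) • ((zr φ f).1 * (zr φ f').1)) / _ = _ / _ * (_ / _)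
      rw [smul_mul', mul_div_mul_comm]
    · rw [map_add, ← hzr φ f, ← hzr φ f']
      exact congrArg Additive.ofMul (Eq.trans (congrArg QuotientGroup.mk
        (Subtype.ext (mul_pow _ _ _) : (⟨_, hm⟩ : U) = ⟨_, (zr φ f).2⟩ * ⟨_, (zr φ f').2⟩))
        (QuotientGroup.mk_mul _ _ _))
  have hfun : ∀ φ n, ∃ m : M, ∀ f : CoDual M, f.hom m = w φ n f := fun φ n => by
    obtain ⟨m, hm⟩ := (CoDual.eval_bijective hp).2
      (AddMonoidHom.mk' (w φ n) (hwadd φ n) : CoDual (CoDual M))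
    exact ⟨m, fun f => congrArg (fun z : CoDual (CoDual M) => z.hom f) hm⟩
  choose χ' hχ' using hfun
  have hext : ∀ m m' : M, (∀ f : CoDual M, f.hom m = f.hom m') → m = m' := fun m m' h =>
    sub_eq_zero.mp (CoDual.eq_zero_of_apply hp fun f => by rw [map_sub, h f, sub_self])
  have hmem : ∀ φ, χ' φ ∈ eqHoms M hn H := fun φ => by
    refine ⟨fun a b => hext _ _ fun f => ?_, ?_, fun g hg n => hext _ _ fun f => ?_⟩
    · rw [map_add, hχ', hχ', hχ']
      refine Additive.toMul.injective ?_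
      show (((a : L.G) * (b : L.G)) • (zr φ f).1) / _ = _ / _ * (_ / _)
      set z := (zr φ f).1
      have hb : ((b : L.G) • z / z) ^ p = 1 := by
        rw [div_pow, ← smul_pow', hK.fix _ (zr φ f).2 _ b.2, div_self']
      have h1 := hK.mu _ hb (a : L.G) a.2
      rw [smul_div', ← mul_smul, div_eq_iff_eq_mul] at h1
      rw [h1, mul_div_assoc, mul_comm]
    · obtain ⟨N', hN', hfix⟩ := exists_level_finset (P := fun f s => s • (zr φ f).1 = (zr φ f).1)
        Finset.univ fun f _ => hK.level _ (zr φ f).2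
      refine ⟨N', hN', fun n hn' => hext _ _ fun f => ?_⟩
      rw [hχ', map_zero]
      exact congrArg Additive.ofMul (div_eq_one.mpr (hfix f (Finset.mem_univ f) n hn'))
    · rw [hχ', ← smul_inv_smul g f, CoDual.smul_apply, inv_smul_smul, hχ', smul_inv_smul]
      refine Additive.toMul.injective ?_
      show _ = g • ((n : L.G) • (zr φ (g⁻¹ • f)).1 / (zr φ (g⁻¹ • f)).1)
      set z := zr φ (g⁻¹ • f) with hzdef
      have hc : cls ⟨g • z.1, smul_pow_mem hK.stab g z.2⟩ = φ.1 f := by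
        have h := φ.2 g hg (g⁻¹ • f) ⟨_, z.2⟩ ⟨_, smul_pow_mem hK.stab g z.2⟩ (hzr φ _).symm
          (smul_pow' g z.1 p).symm
        rw [smul_inv_smul] at h
        exact h.symm
      rw [← hwy φ f ⟨g • z.1, smul_pow_mem hK.stab g z.2⟩ hc, smul_div']
      show (g * n * g⁻¹) • g • z.1 / g • z.1 = _
      rw [← mul_smul, inv_mul_cancel_right, mul_smul]
  refine ⟨⟨F, fun φ => ⟨χ' φ, hmem φ⟩, fun χ => Subtype.ext (funext fun n => hext _ _ fun f => ?_),
    fun φ => Subtype.ext (AddMonoidHom.ext fun f => ?_)⟩⟩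
  · show f.hom (χ' (F χ) n) = f.hom (χ.1 n)
    rw [hχ']
    refine Additive.toMul.injective ?_
    rw [← hwy (F χ) f ⟨yr χ f, hyU χ f⟩ rfl n, hyn, mul_div_cancel_right]
  · show cls ⟨yr _ f, hyU _ f⟩ = φ.1 f
    rw [← hzr φ f]
    refine (hcls _ _).mpr fun n => ?_
    show (n : L.G) • (yr _ f / (zr φ f).1) = yr _ f / (zr φ f).1
    rw [smul_div', hyn, div_eq_div_iff_div_eq_div, mul_div_cancel_right]
    exact congrArg Additive.toMul (hχ' φ n f)

end Fermat.Agent.GD
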