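import Fermat.Agent.GD.Bases.Euler.SplitExt

/-!
# Places over a place and their local groups
-/

set_option autoImplicit false
set_option linter.style.haveILetI false

noncomputable section

namespace Fermat.Agent.GD

open Fermat.Agent.Galois (GQ)

local notation "ℚb" => AlgebraicClosure ℚ

variable {p : ℕ} [hpf : Fact p.Prime] {T : Finset Nat.Primes}

theorem finiteIndex_of_level_le {N H : Subgroup GQ} (hN : (LT T).IsLevel N) (hle : N ≤ H) :
    H.FiniteIndex := by
  have : N.FiniteIndex := (LT T).finiteIndex N hN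
  exact Subgroup.finiteIndex_of_le hle

theorem finite_placesAbove (v : Place) (H : Subgroup GQ) [H.FiniteIndex] :
    Finite (PlacesAbove v H) := by
  refine Finite.of_surjective (fun s : GQ ⧸ H => DoubleCoset.mk (decomp v) H s.out) fun w => ?_
  obtain ⟨g, rfl⟩ := Quotient.exists_rep w
  refine ⟨QuotientGroup.mk g, (DoubleCoset.eq (decomp v) H _ _).mpr ?_⟩
  obtain ⟨k, hk⟩ := QuotientGroup.mk_out_eq_mul H g
  exact ⟨1, one_mem _, (k : GQ)⁻¹, H.inv_mem k.2, by rw [one_mul, hk, mul_inv_cancel_right]⟩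

/-- The local group of a place above `v`. -/
abbrev placeGroup (v : Place) (H : Subgroup GQ) (w : PlacesAbove v H) : Subgroup (decomp v) :=
  locSub (decomp v) H w.out

theorem placeGroup_isOpen {N H : Subgroup GQ} (hN : (LT T).IsLevel N) (hle : N ≤ H) (v : Place)
    (r : GQ) : (LD v).IsOpen (locSub (decomp v) H r) := by
  have hnorm := (LT T).normal N hN
  obtain ⟨F, hF, hFN, hn⟩ := hN
  refine ⟨_, ⟨N, ⟨F, hF.1, hFN, hn⟩, rfl⟩, fun d hd => ?_⟩
  show r⁻¹ * ((show decomp v from d) : GQ) * r⁻¹⁻¹ ∈ H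
  exact hle (hnorm.conj_mem _ hd r⁻¹)

omit hpf in
theorem placeGroup_fixesMu {H : Subgroup GQ} (hμ : FixesMu p H) (v : Place) (r : GQ)
    (h : decomp v) (hh : h ∈ locSub (decomp v) H r) (μ : ℚbˣ) (hμ1 : μ ^ p = 1) : h • μ = μ := by
  refine Units.ext ?_
  show ((h : decomp v) : GQ) (μ : ℚb) = μ
  have h1 := hμ _ hh (r⁻¹ (μ : ℚb))
    (by rw [← map_pow, ← Units.val_pow_eq_pow_val, hμ1, Units.val_one, map_one])
  simp only [MonoidHom.comp_apply, MulEquiv.coe_toMonoidHom, MulAut.conj_apply, inv_inv,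
    Subgroup.coe_subtype, AlgEquiv.mul_apply] at h1
  change r⁻¹ (((h : decomp v) : GQ) (r (r⁻¹ (μ : ℚb)))) = r⁻¹ (μ : ℚb) at h1
  rw [show r (r⁻¹ (μ : ℚb)) = μ from AlgEquiv.apply_symm_apply r _] at h1
  exact (AlgEquiv.injective r⁻¹) h1

theorem placeGroup_none (hp2 : p ≠ 2) {H : Subgroup GQ} (hμ : FixesMu p H) (r : GQ) :
    locSub (decomp none) H r = ⊥ := by
  refine (Subgroup.eq_bot_iff_forall _).mpr fun d hd => Subtype.ext ?_
  have hd' : r⁻¹ * ((d : decomp none) : GQ) * r⁻¹⁻¹ ∈ H := hd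
  have h1 := eq_one_of_fixesMu_arch (g := r) hp2 hμ hd' (by
    rw [inv_inv, mul_assoc, mul_assoc, mul_inv_cancel, mul_one, mul_inv_cancel_left]
    exact (d : decomp none).2)
  rw [inv_inv, mul_assoc, inv_mul_eq_one] at h1
  exact (mul_eq_right.mp h1.symm : ((d : decomp none) : GQ) = 1)

/-- The degree is the sum of the local degrees. -/
theorem index_eq_sum_placeGroup (v : Place) (H : Subgroup GQ) [H.FiniteIndex] :
    H.index = ∑ᶠ w : PlacesAbove v H, (placeGroup v H w).index := by
  classical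
  haveI := finite_placesAbove v H
  haveI := Fintype.ofFinite (PlacesAbove v H)
  let f : (Σ w : PlacesAbove v H, decomp v ⧸ placeGroup v H w) → GQ ⧸ H := fun x =>
    Quotient.liftOn' x.2 (fun d => (QuotientGroup.mk ((d : GQ) * x.1.out) : GQ ⧸ H)) fun a b hab => by
      have h1 : a⁻¹ * b ∈ placeGroup v H x.1 := QuotientGroup.leftRel_apply.mp hab
      refine QuotientGroup.eq.mpr ?_
      have h2 : x.1.out⁻¹ * ((a⁻¹ * b : decomp v) : GQ) * x.1.out⁻¹⁻¹ ∈ H := h1
      simpa [mul_assoc] using h2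
  have hf : Function.Bijective f := by
    constructor
    · rintro ⟨w, s⟩ ⟨w', s'⟩ h
      induction s using Quotient.inductionOn' with | h a => ?_
      induction s' using Quotient.inductionOn' with | h b => ?_
      have h1 : ((a : GQ) * w.out)⁻¹ * ((b : GQ) * w'.out) ∈ H := QuotientGroup.eq.mp h
      obtain rfl : w = w' := by
        rw [← DoubleCoset.out_eq' (decomp v) H w, ← DoubleCoset.out_eq' (decomp v) H w']
        exact (DoubleCoset.eq (decomp v) H _ _).mpr ⟨(b : GQ)⁻¹ * a, mul_mem (inv_mem b.2) a.2,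
          _, h1, by group⟩
      refine Sigma.ext rfl (heq_of_eq (QuotientGroup.eq.mpr ?_))
      show w.out⁻¹ * ((a⁻¹ * b : decomp v) : GQ) * w.out⁻¹⁻¹ ∈ H
      simpa [mul_assoc] using h1
    · intro s
      obtain ⟨g, rfl⟩ := QuotientGroup.mk_surjective s
      obtain ⟨a, k, ha, hk, e⟩ := DoubleCoset.mk_out_eq_mul (decomp v) H g
      refine ⟨⟨DoubleCoset.mk (decomp v) H g, QuotientGroup.mk (⟨a, ha⟩⁻¹ : decomp v)⟩, ?_⟩
      refine QuotientGroup.eq.mpr ?_
      rw [e, Subgroup.coe_inv]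
      simpa [mul_assoc] using H.inv_mem hk
  haveI : ∀ w : PlacesAbove v H, Finite (decomp v ⧸ placeGroup v H w) := fun w =>
    Finite.of_injective (fun s => f ⟨w, s⟩) (hf.1.comp sigma_mk_injective)
  rw [finsum_eq_sum_of_fintype, Subgroup.index_eq_card, ← Nat.card_congr (Equiv.ofBijective f hf),
    Nat.card_sigma]
  exact Finset.sum_congr rfl fun w _ => (Subgroup.index_eq_card _).symm

theorem card_decomp_none (hp2 : p ≠ 2) : Nat.card (decomp none) = 2 := by
  show Nat.card (Subgroup.zpowers complexConjugation) = 2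
  rw [Nat.card_zpowers]
  refine orderOf_eq_prime complexConjugation_sq fun h1 => ?_
  haveI : NeZero p := ⟨hpf.out.ne_zero⟩
  obtain ⟨ζ, hζ⟩ := HasEnoughRootsOfUnity.exists_primitiveRoot ℚb p
  have h2 : starRingEnd ℂ (complexEmbedding ζ) = complexEmbedding ζ := by
    rw [← complexEmbedding_complexConjugation, h1]; rfl
  have h3 : complexEmbedding ζ * complexEmbedding ζ = 1 := by
    show (complexEmbedding ζ : ℂ) * complexEmbedding ζ = 1
    have hn1 : ‖complexEmbedding ζ‖ = 1 := Complex.norm_eq_one_of_pow_eq_one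
      (by rw [← map_pow, hζ.pow_eq_one, map_one]) hpf.out.ne_zero
    nth_rewrite 2 [← h2]
    rw [Complex.mul_conj, Complex.normSq_eq_norm_sq, hn1]
    norm_num
  have h4 : ζ ^ 2 = 1 := complexEmbedding.injective (by rw [map_pow, map_one, sq]; exact h3)
  have h5 := Nat.le_of_dvd two_pos (hζ.dvd_of_pow_eq_one 2 h4)
  have h6 := hpf.out.two_le
  omega

/-- The degree is twice the number of places at infinity. -/
theorem index_eq_two_mul_places (hp2 : p ≠ 2) (H : Subgroup GQ) [H.FiniteIndex]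
    (hμ : FixesMu p H) : H.index = 2 * Nat.card (PlacesAbove none H) := by
  classical
  haveI := finite_placesAbove none H
  haveI := Fintype.ofFinite (PlacesAbove none H)
  rw [index_eq_sum_placeGroup none H, finsum_eq_sum_of_fintype, Finset.sum_congr rfl (g := fun _ => 2)
    fun w _ => ?_, Finset.sum_const, smul_eq_mul, Finset.card_univ, Nat.card_eq_fintype_card,
    mul_comm]
  show (locSub (decomp none) H w.out).index = 2
  rw [placeGroup_none hp2 hμ, Subgroup.index_bot, card_decomp_none hp2]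

end Fermat.Agent.GD
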