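import Fermat.Agent.GD.Bases.Euler.Kummer
import Fermat.Agent.GD.GW.Root
import Fermat.Agent.GD.Global.Basic.Support
import Fermat.Agent.GD.Bases.Euler.Places

/-!
# The units of Kummer theory, locally and away from a big set of primes
-/

set_option autoImplicit false
set_option linter.style.haveILetI false
set_option linter.unusedSectionVars false

noncomputable section

namespace Fermat.Agent.GD

open Fermat.Agent.Galois (GQ)

local notation "ℚb" => AlgebraicClosure ℚ
local notation "Cu" => Additive (AlgebraicClosure ℚ)ˣ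

variable {p : ℕ} [hpf : Fact p.Prime] {T : Finset Nat.Primes}

theorem inertia_mem_level {N : Subgroup GQ} (hN : (LT T).IsLevel N) {q : Nat.Primes} (hq : q ∉ T)
    {σ : GQ} (hσ : σ ∈ (placeAt q).inertiaSubgroupIn ℚ) : σ ∈ N := by
  obtain ⟨F, hF, hFN, -⟩ := hN
  exact hFN ▸ hF.2 q hq (placeAt q) (placeAt_liesOverPrime q) hσ

theorem mem_unitGroup_of_pow_mem {A : ValuationSubring ℚb} {x : ℚbˣ} (hx : x ^ p ∈ A.unitGroup) :
    x ∈ A.unitGroup := by
  rw [ValuationSubring.mem_unitGroup_iff] at hx ⊢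
  rw [Units.val_pow_eq_pow_val, map_pow] at hx
  exact (pow_eq_one_iff.mp hx).resolve_right hpf.out.ne_zero

/-- A radical of a character of a level, with valuations divisible by `p` away from `T`. -/
theorem exists_radical {N : Subgroup GQ} (hN : (LT T).IsLevel N) (hbig : IsBig T N)
    (hμ : FixesMu p N) (χ : N → ℚbˣ) (hpow : ∀ n, χ n ^ p = 1)
    (hmul : ∀ a b, χ (a * b) = χ a * χ b)
    (hc : ∃ N', (LT T).IsLevel N' ∧ ∀ n : N, (n : GQ) ∈ N' → χ n = 1) :
    ∃ y : ℚbˣ, y ^ p ∈ sUnits T N ∧ ∀ n : N, (n : GQ) • y = χ n * y := by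
  classical
  obtain ⟨N', hN', hχ0⟩ := hc
  let K : Subgroup GQ := (show Subgroup GQ from N') ⊓ N
  have hK : (LT T).IsLevel K := (LT T).inf _ _ hN' hN
  have hKn : K.Normal := (LT T).normal K hK
  have hNn : N.Normal := (LT T).normal N hN
  have hfix : ∀ μ : ℚbˣ, μ ^ p = 1 → ∀ s ∈ N, (s : GQ) • μ = μ := fun μ h s hs => Units.ext
    (hμ s hs (μ : ℚb) (by rw [← Units.val_pow_eq_pow_val, h, Units.val_one]))
  obtain ⟨z, -, hz⟩ := exists_smul_div_eq_global hK inf_le_right χ
    (fun g h => by rw [hmul, hfix _ (hpow h) g g.2])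
    (fun g s hs => by rw [hmul, hχ0 s hs.1, mul_one])
  have hzn : ∀ n : N, (n : GQ) • z = χ n * z := fun n => by rw [hz n, div_mul_cancel]
  have hzK : ∀ s ∈ K, (s : GQ) • z = z := fun s hs => by
    rw [hzn ⟨s, hs.2⟩, hχ0 ⟨s, hs.2⟩ hs.1, one_mul]
  -- local corrections
  have hloc : ∀ (v : Place) (r : GQ), ∃ a : ℚbˣ, ∀ q, v = some q → q ∉ T →
      (∀ e ∈ locSub (decomp v) N r, (e : GQ) • a = a) ∧ a / (r • z) ∈ (placeAt q).unitGroup := by
    intro v r
    cases v with
    | none => exact ⟨1, fun q h => absurd h (by simp)⟩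
    | some q =>
      by_cases hq : q ∈ T
      · exact ⟨1, fun q' h hq' => absurd ((Option.some.inj h) ▸ hq) hq'⟩
      let K' : Subgroup (LD (some q)).G := K.subgroupOf (decomp (some q))
      have hK' : (LD (some q)).IsLevel K' := by
        obtain ⟨F, hF, hFK, hn⟩ := hK
        exact ⟨K, ⟨F, hF.1, hFK, hn⟩, rfl⟩
      let S : Subgroup (LD (some q)).G := locSub (decomp (some q)) N r
      have hKS : K' ≤ S := fun d hd => by
        show r⁻¹ * ((show decomp (some q) from d) : GQ) * r⁻¹⁻¹ ∈ N
        exact (hKn.conj_mem _ hd r⁻¹).2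
      have hrz : ∀ s ∈ K, (s : GQ) • r • z = r • z := fun s hs => by
        have h1 := hzK _ (hKn.conj_mem s hs r⁻¹)
        rw [inv_inv, mul_smul, mul_smul, inv_smul_eq_iff] at h1
        exact h1
      let f : S → ℚbˣ := fun d => (d : (LD (some q)).G) • (r • z) / (r • z)
      obtain ⟨u, hu, -, hfu⟩ := units_h1_eq q S K' hK'
        (fun s hs => inertia_mem_level hK hq hs) hKS f
        (fun g h => by
          show ((g : (LD (some q)).G) * (h : (LD (some q)).G)) • (r • z) / (r • z) =
            (g : (LD (some q)).G) • (r • z) / (r • z) *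
              (g : (LD (some q)).G) • ((h : (LD (some q)).G) • (r • z) / (r • z))
          rw [smul_div', ← mul_smul, mul_comm, div_mul_div_cancel])
        (fun g s hs => by
          show _ / _ = _ / _
          rw [Subgroup.coe_mul, mul_smul]
          exact congrArg (fun x => (g : (LD (some q)).G) • x / (r • z))
            (hrz _ (Subgroup.mem_subgroupOf.mp hs)))
      refine ⟨r • z / u, fun q' h _ => ?_⟩
      obtain rfl := Option.some.inj h
      refine ⟨fun e he => ?_, ?_⟩
      · have h1 : (e : GQ) • (r • z) / (r • z) = (e : GQ) • u / u := hfu ⟨e, he⟩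
        rw [smul_div', div_eq_div_iff_div_eq_div]
        exact h1
      · rw [div_right_comm, div_self', one_div]
        exact inv_mem hu
  choose a ha using hloc
  have hglue : ∀ v, ∃ B : GQ → Cu, ∀ (d : decomp v) (g : GQ) (k : N),
      B ((d : GQ) * dRep (decomp v) N g * (k : GQ)) = (d : GQ) • Additive.ofMul
        (if v ∈ placesOf T then 1 else a v (dRep (decomp v) N g)) := by
    intro v
    obtain ⟨B, hB⟩ := exists_glue (D := decomp v) (A := Cu) (H := N)
      (fun r _ => if v ∈ placesOf T then 0 else Additive.ofMul (a v r))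
      (fun r e k => by
        split_ifs with hv
        · exact (smul_zero _).symm
        · obtain ⟨q, rfl, hq⟩ : ∃ q, v = some q ∧ q ∉ T := by
            cases v with
            | none => exact absurd mem_placesOf_none hv
            | some q => exact ⟨q, rfl, fun h => hv (mem_placesOf_some.mpr h)⟩
          exact congrArg Additive.ofMul ((ha _ r q rfl hq).1 _ e.2).symm)
    refine ⟨B, fun d g k => ?_⟩
    rw [hB]
    refine congrArg (fun x : Cu => (d : GQ) • x) ?_
    split_ifs <;> rfl
  choose B hB using hglue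
  let F : Place → GQ → ℚbˣ := fun v g => (B v g).toMul
  have hunit : ∀ q ∉ T, ∀ g, F (some q) g / (g • z) ∈ (placeAt q).unitGroup := by
    intro q hq g
    obtain ⟨d, k, hg⟩ := exists_eq_dRep (D := decomp (some q)) N g
    set r := dRep (decomp (some q)) N g
    show (B (some q) g).toMul / _ ∈ _
    conv in g • z => rw [hg]
    rw [show B (some q) g = _ from (congrArg (B (some q)) hg).trans (hB _ d g k),
      if_neg fun h => hq (mem_placesOf_some.mp h), mul_smul, mul_smul, hzn k, smul_mul', smul_mul']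
    show (d : GQ) • a (some q) r / ((d : GQ) • r • χ k * (d : GQ) • r • z) ∈ _
    rw [div_mul_eq_div_div_swap, ← smul_div', div_eq_mul_inv]
    refine mul_mem (show (d : GQ) • _ ∈ _ from smul_mem_unitGroup d (ha _ r q rfl hq).2) (inv_mem (mem_unitGroup_of_pow_mem (p := p) ?_))
    rw [← smul_pow', ← smul_pow', hpow, smul_one, smul_one]
    exact one_mem _
  have hFk : ∀ v g, ∀ s : GQ, s ∈ N → F v (g * s) = F v g := fun v g s hs => by
    obtain ⟨d', k', hg⟩ := exists_eq_dRep (D := decomp v) N g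
    refine congrArg Additive.toMul (?_ : B v (g * s) = B v g)
    conv_lhs => rw [hg, mul_assoc, show (k' : GQ) * s = ((k' * ⟨s, hs⟩ : N) : GQ) from rfl, hB]
    conv_rhs => rw [hg, hB]
  have hFm : F ∈ idele T := by
    refine ⟨fun v d hd g => ?_, ⟨N, hN, hFk⟩,
      (T.finite_toSet.union (diag_finite z)).subset fun q ⟨g, hg⟩ => ?_⟩
    · obtain ⟨d', k, hg⟩ := exists_eq_dRep (D := decomp v) N g
      refine congrArg Additive.toMul (?_ : B v (d * g) = d • B v g)
      conv_lhs =>
        rw [hg, ← mul_assoc, ← mul_assoc,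
          show d * (d' : GQ) = ((⟨d, hd⟩ * d' : decomp v) : GQ) from rfl, hB]
      conv_rhs => rw [hg, hB]
      rw [Subgroup.coe_mul, mul_smul]
    · by_contra hc
      simp only [Set.mem_union, Finset.mem_coe, Set.mem_ofPred_eq, not_or, not_exists, not_not] at hc
      refine hg ?_
      have h1 := mul_mem (hunit q hc.1 g) (hc.2 g)
      show F (some q) g ∈ _
      rwa [show diag z (some q) g = g • z from rfl, div_mul_cancel] at h1
  obtain ⟨x, hx, hxu⟩ := hbig N le_rfl ⟨F, hFm⟩
    fun h hh => funext fun v => funext fun g => hFk v g h hh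
  refine ⟨z / x, ⟨fun s hs => ?_, fun q hq g => ?_⟩, fun n => ?_⟩
  · rw [smul_pow', smul_div', hx s hs, hzn ⟨s, hs⟩, mul_div_assoc, mul_pow, hpow, one_mul]
  · rw [smul_pow', smul_div']
    refine pow_mem ?_ p
    have h1 := mul_mem (inv_mem (hunit q hq g)) (hxu q hq g)
    rwa [inv_div, div_mul_div_cancel] at h1
  · rw [smul_div', hx n n.2, hzn n, mul_div_assoc]

theorem isKummer_sUnits (hT : (⟨p, Fact.out⟩ : Nat.Primes) ∈ T) {N : Subgroup (LT T).G}
    (hN : (LT T).IsLevel N) (hμ : FixesMu p N) (hbig : IsBig T N) :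
    IsKummer (L := LT T) p N (sUnits T N) where
  fix u hu s hs := hu.1 s hs
  stab g u hu := by
    refine ⟨fun s hs => ?_, fun q hq h => ?_⟩
    · have h1 := hu.1 _ (((LT T).normal N hN).conj_mem s hs g⁻¹)
      rw [inv_inv] at h1
      change ((show GQ from g)⁻¹ * (show GQ from s) * (show GQ from g)) • u = u at h1
      rw [mul_smul, mul_smul, inv_smul_eq_iff] at h1
      exact h1
    · show h • (show GQ from g) • u ∈ _
      rw [← mul_smul]
      exact hu.2 q hq _
  sat z hz hzp := ⟨hz, fun q hq g => mem_unitGroup_of_pow_mem (p := p) (by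
    rw [← smul_pow']; exact hzp.2 q hq g)⟩
  mu μ hμ1 s hs := Units.ext
    (hμ s hs (μ : ℚb) (by rw [← Units.val_pow_eq_pow_val, hμ1, Units.val_one]))
  level z hz := exists_level_root hT hN hz.1 hz.2 rfl
  radical χ h1 h2 h3 := exists_radical hN hbig hμ χ h1 h2 h3

theorem smooth_units_LD (v : Place) (x : ℚbˣ) :
    ∃ N', (LD v).IsLevel N' ∧ ∀ s ∈ N', s • x = x := by
  haveI : Normal ℚ ℚb := IsGalois.to_normal
  set E : IntermediateField ℚ ℚb := IntermediateField.adjoin ℚ ({(x : ℚb)} : Set ℚb)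
  haveI : FiniteDimensional ℚ E :=
    IntermediateField.adjoin.finiteDimensional (Algebra.IsIntegral.isIntegral _)
  let K : IntermediateField ℚ ℚb := IntermediateField.normalClosure ℚ E ℚb
  haveI : FiniteDimensional ℚ K := normalClosure.is_finiteDimensional ℚ _ ℚb
  haveI : Normal ℚ K := normalClosure.normal ℚ _ ℚb
  have hKn : K.fixingSubgroup.Normal := by
    haveI : IsGalois ℚ K := ⟨⟩
    infer_instance
  refine ⟨_, ⟨_, ⟨K, inferInstance, rfl, hKn⟩, rfl⟩, fun s hs => Units.ext ?_⟩
  have hs' : (show decomp v from s).1 ∈ K.fixingSubgroup := hs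
  exact hs' ⟨_, IntermediateField.le_normalClosure E
    (IntermediateField.mem_adjoin_simple_self ℚ _)⟩

theorem isKummer_fixedUnits {v : Place} {N : Subgroup (LD v).G} (hN : (LD v).IsLevel N)
    (hμ : ∀ μ : ℚbˣ, μ ^ p = 1 → ∀ s ∈ N, s • μ = μ) :
    IsKummer (L := LD v) p N (fixedUnits N) where
  fix u hu s hs := hu s hs
  stab g u hu s hs := by
    have h1 := hu _ (((LD v).normal N hN).conj_mem s hs g⁻¹)
    rwa [inv_inv, mul_smul, mul_smul, inv_smul_eq_iff] at h1
  sat z hz _ := hz
  mu := hμ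
  level z _ := smooth_units_LD v z
  radical χ hpow hmul hc := by
    obtain ⟨N', hN', hχ0⟩ := hc
    obtain ⟨z, -, hz⟩ := exists_smul_div_eq v N (N' ⊓ N) ((LD v).inf _ _ hN' hN) inf_le_right χ
      (fun g h => by rw [hmul, hμ _ (hpow h) g g.2])
      (fun g s hs => by rw [hmul, hχ0 s hs.1, mul_one])
    have hzn : ∀ n : N, (n : (LD v).G) • z = χ n * z := fun n => by rw [hz n, div_mul_cancel]
    exact ⟨z, fun s hs => by rw [smul_pow', hzn ⟨s, hs⟩, mul_pow, hpow, one_mul], hzn⟩

end Fermat.Agent.GD
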