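import Fermat.Agent.GD.Engine.Euler

/-!
# Shapiro's lemma for permutation modules
-/

set_option autoImplicit false
set_option linter.style.haveILetI false
set_option linter.unusedSectionVars false

noncomputable section

namespace Fermat.Agent.GD

universe u

variable {L : LevelGroup.{u}}

/-- A module of the functions on a transitive set with values in a module. -/
structure IsInd {X : Type} [MulAction L.G X] (x₀ : X) (H : Subgroup L.G) (P M : Type)
    [AddCommGroup P] [AddCommGroup M] [DistribMulAction L.G P] [DistribMulAction L.G M]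
    (ι : P ≃+ (X → M)) : Prop where
  stab : ∀ g : L.G, g ∈ H ↔ g • x₀ = x₀
  trans : ∀ x : X, ∃ g : L.G, g • x₀ = x
  smul : ∀ (g : L.G) (φ : P) (x : X), ι (g • φ) x = g • ι φ (g⁻¹ • x)

namespace IsInd

variable {X : Type} [MulAction L.G X] {x₀ : X} {H : Subgroup L.G} {P M : Type} [AddCommGroup P]
  [AddCommGroup M] [DistribMulAction L.G P] [DistribMulAction L.G M] {ι : P ≃+ (X → M)}

variable (h : IsInd x₀ H P M ι)
include h

/-- A group element moving the base point to a given one. -/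
def rep (x : X) : L.G :=
  haveI := Classical.decEq X
  if x = x₀ then 1 else (h.trans x).choose

theorem rep_smul (x : X) : h.rep x • x₀ = x := by
  unfold rep
  split_ifs with hx
  · rw [one_smul, hx]
  · exact (h.trans x).choose_spec

theorem rep_base : h.rep x₀ = 1 := by
  unfold rep
  rw [if_pos rfl]

/-- The transfer element at a point. -/
def tw (g : L.G) (x : X) : H :=
  ⟨(h.rep x)⁻¹ * g * h.rep (g⁻¹ • x), (h.stab _).mpr (by
    rw [mul_smul, mul_smul, h.rep_smul, smul_inv_smul, inv_smul_eq_iff, h.rep_smul])⟩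

theorem rep_mul_tw (g : L.G) (x : X) : h.rep x * (h.tw g x : L.G) = g * h.rep (g⁻¹ • x) := by
  show h.rep x * ((h.rep x)⁻¹ * g * h.rep (g⁻¹ • x)) = _
  group

theorem tw_mul (g g' : L.G) (x : X) : h.tw (g * g') x = h.tw g x * h.tw g' (g⁻¹ • x) :=
  Subtype.ext (by
    show (h.rep x)⁻¹ * (g * g') * h.rep ((g * g')⁻¹ • x) =
      (h.rep x)⁻¹ * g * h.rep (g⁻¹ • x) * ((h.rep (g⁻¹ • x))⁻¹ * g' * h.rep (g'⁻¹ • g⁻¹ • x))
    rw [mul_inv_rev g g', mul_smul]
    group)

theorem tw_base (k : H) : h.tw k x₀ = k := Subtype.ext (by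
  show (h.rep x₀)⁻¹ * (k : L.G) * h.rep ((k : L.G)⁻¹ • x₀) = k
  rw [(h.stab _).mp (H.inv_mem k.2), h.rep_base, inv_one, one_mul, mul_one])

theorem ext_apply {φ ψ : P} (e : ∀ x, ι φ x = ι ψ x) : φ = ψ := ι.injective (funext e)

/-- The function extending a map of the stabiliser. -/
def extend (y : H → M) (g : L.G) : P := ι.symm fun x => h.rep x • y (h.tw g x)

theorem extend_apply (y : H → M) (g : L.G) (x : X) :
    ι (h.extend y g) x = h.rep x • y (h.tw g x) := congrFun (ι.apply_symm_apply _) x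

theorem extend_mem_Z1 (hH : L.IsOpen H) {y : H → M} (hy : y ∈ (L.sub H).Z1 M) :
    h.extend y ∈ L.Z1 P := by
  obtain ⟨⟨_, ⟨N, hN, rfl⟩, hyN⟩, hyc⟩ := hy
  obtain ⟨N₁, hN₁, hle⟩ := hH
  refine ⟨⟨N ⊓ N₁, L.inf N N₁ hN hN₁, fun g s hs => h.ext_apply fun x => ?_⟩, fun g g' =>
    h.ext_apply fun x => ?_⟩
  · have hn := L.normal _ (L.inf N N₁ hN hN₁)
    have hfix : ∀ s ∈ N ⊓ N₁, ∀ x : X, s • x = x := fun s hs x => by
      obtain ⟨r, rfl⟩ := h.trans x
      have h1 : r⁻¹ * s * r⁻¹⁻¹ ∈ H := hle (hn.conj_mem s hs r⁻¹).2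
      rw [h.stab, inv_inv, mul_smul, mul_smul, inv_smul_eq_iff] at h1
      exact h1
    have hgs : (g * s)⁻¹ • x = g⁻¹ • x := by
      rw [mul_inv_rev, mul_smul, hfix _ ((N ⊓ N₁).inv_mem hs)]
    set r := h.rep (g⁻¹ • x) with hr
    have hs' : r⁻¹ * s * r ∈ N ⊓ N₁ := by simpa using hn.conj_mem s hs r⁻¹
    rw [h.extend_apply, h.extend_apply,
      show h.tw (g * s) x = h.tw g x * ⟨r⁻¹ * s * r, hle hs'.2⟩ from Subtype.ext (by
        show (h.rep x)⁻¹ * (g * s) * h.rep ((g * s)⁻¹ • x) =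
          (h.rep x)⁻¹ * g * h.rep (g⁻¹ • x) * (r⁻¹ * s * r)
        rw [hgs, ← hr]
        group)]
    exact congrArg (h.rep x • ·) (hyN _ _ hs'.1)
  · rw [h.extend_apply, h.tw_mul, map_add, Pi.add_apply, h.smul, h.extend_apply, h.extend_apply,
      show y (h.tw g x * h.tw g' (g⁻¹ • x)) =
        y (h.tw g x) + (h.tw g x : L.G) • y (h.tw g' (g⁻¹ • x)) from hyc _ _,
      smul_add, ← mul_smul, ← mul_smul, h.rep_mul_tw]

/-- Restriction and evaluation at the base point. -/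
def resEval : L.Z1 P →+ (L.sub H).Z1 M :=
  AddMonoidHom.mk' (fun f => ⟨fun k => ι (f.1 (k : H).1) x₀, by
    obtain ⟨⟨N, hN, hfN⟩, hfc⟩ := f.2
    refine ⟨⟨_, ⟨N, hN, rfl⟩, fun g s hs => congrArg (fun φ => ι φ x₀) (hfN _ _ hs)⟩,
      fun g g' => ?_⟩
    show ι (f.1 ((g : H).1 * (g' : H).1)) x₀ = ι (f.1 _) x₀ + (g : H).1 • ι (f.1 _) x₀
    rw [hfc, map_add, Pi.add_apply, h.smul, (h.stab _).mp (H.inv_mem (g : H).2)]⟩)
    fun f f' => Subtype.ext (funext fun k => by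
      show ι (f.1 _ + f'.1 _) x₀ = ι (f.1 _) x₀ + ι (f'.1 _) x₀
      rw [map_add, Pi.add_apply])

theorem mem_B1_of_resEval (f : L.Z1 P) (hf : (h.resEval f).1 ∈ (L.sub H).B1 M) :
    f.1 ∈ L.B1 P := by
  obtain ⟨m, hm⟩ := hf
  let ψ : P := ι.symm fun x => ι (f.1 (h.rep x)) x - h.rep x • m
  have hψ : ∀ x, ι ψ x = ι (f.1 (h.rep x)) x - h.rep x • m := fun x =>
    congrFun (ι.apply_symm_apply _) x
  refine ⟨-ψ, funext fun g => h.ext_apply fun x => ?_⟩
  have hk : ι (f.1 (h.tw g x : L.G)) x₀ = (h.tw g x : L.G) • m - m := (congrFun hm (h.tw g x)).symm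
  have e1 : ι (f.1 (g * h.rep (g⁻¹ • x))) x =
      ι (f.1 g) x + g • ι (f.1 (h.rep (g⁻¹ • x))) (g⁻¹ • x) := by
    rw [f.2.2, map_add, Pi.add_apply, h.smul]
  have e2 : ι (f.1 (h.rep x * (h.tw g x : L.G))) x =
      ι (f.1 (h.rep x)) x + h.rep x • ι (f.1 (h.tw g x : L.G)) x₀ := by
    rw [f.2.2, map_add, Pi.add_apply, h.smul,
      show (h.rep x)⁻¹ • x = x₀ from inv_smul_eq_iff.mpr (h.rep_smul x).symm]
  rw [h.rep_mul_tw, e1, hk, smul_sub, ← mul_smul, h.rep_mul_tw, mul_smul] at e2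
  show ι (g • -ψ - -ψ) x = ι (f.1 g) x
  rw [map_sub, Pi.sub_apply, h.smul, map_neg, Pi.neg_apply, Pi.neg_apply, hψ, hψ, smul_neg,
    smul_sub]
  linear_combination (norm := abel) -e2

theorem resEval_extend (hH : L.IsOpen H) (y : (L.sub H).Z1 M) :
    h.resEval ⟨h.extend y.1, h.extend_mem_Z1 hH y.2⟩ = y :=
  Subtype.ext (funext fun k => by
    show ι (h.extend y.1 (k : H).1) x₀ = y.1 k
    rw [h.extend_apply, h.rep_base, one_smul]
    exact congrArg y.1 (h.tw_base k))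

/-- Shapiro in degree one. -/
theorem h1_equiv (hH : L.IsOpen H) : Nonempty (L.H1 P ≃ (L.sub H).H1 M) := by
  let F := (clsH1 (L.sub H) M).comp h.resEval
  have hker : (L.B1 P).addSubgroupOf (L.Z1 P) = F.ker := by
    refine le_antisymm (fun f hf => ?_) fun f hf => h.mem_B1_of_resEval f (clsH1_eq_zero.mp hf)
    obtain ⟨φ, hφ⟩ := hf
    refine clsH1_eq_zero.mpr ⟨ι φ x₀, funext fun k => ?_⟩
    show (k : H).1 • ι φ x₀ - ι φ x₀ = ι (f.1 (k : H).1) x₀
    rw [show f.1 (k : H).1 = (k : H).1 • φ - φ from (congrFun hφ _).symm, map_sub, Pi.sub_apply,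
      h.smul, (h.stab _).mp (H.inv_mem (k : H).2)]
  have hsurj : Function.Surjective F := fun z => by
    obtain ⟨y, rfl⟩ := QuotientAddGroup.mk_surjective z
    exact ⟨⟨_, h.extend_mem_Z1 hH y.2⟩, congrArg (clsH1 (L.sub H) M) (h.resEval_extend hH y)⟩
  exact ⟨((QuotientAddGroup.quotientAddEquivOfEq hker).trans
    (QuotientAddGroup.quotientKerEquivOfSurjective F hsurj)).toEquiv⟩

/-- Shapiro in degree zero. -/
def fixedEquiv : L.fixed P ≃ (L.sub H).fixed M where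
  toFun φ := ⟨ι φ.1 x₀, fun k => by
    show (k : H).1 • ι φ.1 x₀ = ι φ.1 x₀
    have h1 := congrArg (fun ψ => ι ψ x₀) (φ.2 (k : H).1)
    rwa [show ι ((k : H).1 • φ.1) x₀ = _ from h.smul _ _ _,
      (h.stab _).mp (H.inv_mem (k : H).2)] at h1⟩
  invFun m := ⟨ι.symm fun x => h.rep x • m.1, fun g => h.ext_apply fun x => by
    rw [h.smul, congrFun (ι.apply_symm_apply _), congrFun (ι.apply_symm_apply _), ← mul_smul,
      ← h.rep_mul_tw, mul_smul]
    exact congrArg (h.rep x • ·) (m.2 (h.tw g x))⟩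
  left_inv φ := Subtype.ext (h.ext_apply fun x => by
    show ι (ι.symm fun x => h.rep x • ι φ.1 x₀) x = _
    rw [congrFun (ι.apply_symm_apply _)]
    conv_rhs => rw [← φ.2 (h.rep x), h.smul, inv_smul_eq_iff.mpr (h.rep_smul x).symm])
  right_inv m := Subtype.ext (by
    show ι (ι.symm fun x => h.rep x • m.1) x₀ = m.1
    rw [congrFun (ι.apply_symm_apply _), h.rep_base, one_smul])

/-- Shapiro for equivariant maps. -/
theorem homC_equiv [Finite X] (C : Type*) [AddCommGroup C] [DistribMulAction L.G C] :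
    Nonempty (L.HomC P C ≃ (L.sub H).HomC M C) := by
  classical
  have := Fintype.ofFinite X
  let δ : M →+ P := ι.symm.toAddMonoidHom.comp (AddMonoidHom.single (fun _ : X => M) x₀)
  have hδ : ∀ m x, ι (δ m) x = (Pi.single x₀ m : X → M) x := fun m x =>
    congrFun (ι.apply_symm_apply (Pi.single x₀ m)) x
  have hδs : ∀ (g : L.G) m y, ι (g • δ m) y = if y = g • x₀ then g • m else 0 := fun g m y => by
    rw [h.smul, hδ, Pi.single_apply, smul_ite, smul_zero]
    exact if_congr inv_smul_eq_iff rfl rfl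
  let back : (L.sub H).HomC M C → P →+ C := fun χ =>
    AddMonoidHom.mk' (fun φ => ∑ x, h.rep x • χ.1 ((h.rep x)⁻¹ • ι φ x)) fun φ ψ => by
      simp only [map_add, Pi.add_apply, smul_add, Finset.sum_add_distrib]
  have hback : ∀ χ (g : L.G) φ, back χ (g • φ) = g • back χ φ := fun χ g φ => by
    show ∑ x, h.rep x • χ.1 ((h.rep x)⁻¹ • ι (g • φ) x) =
      g • ∑ x, h.rep x • χ.1 ((h.rep x)⁻¹ • ι φ x)
    rw [Finset.smul_sum, ← Equiv.sum_comp (MulAction.toPerm g)]
    refine Finset.sum_congr rfl fun y _ => ?_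
    simp only [MulAction.toPerm_apply]
    rw [h.smul, inv_smul_smul]
    have e := h.rep_mul_tw g (g • y)
    rw [inv_smul_smul] at e
    have e1 : (h.rep (g • y))⁻¹ * g = (h.tw g (g • y) : L.G) * (h.rep y)⁻¹ := by
      rw [inv_mul_eq_iff_eq_mul, ← mul_assoc, e, mul_inv_cancel_right]
    rw [← mul_smul _ g, e1, mul_smul,
      show χ.1 ((h.tw g (g • y) : L.G) • _) = (h.tw g (g • y) : L.G) • χ.1 _ from χ.2 _ _,
      ← mul_smul, e, mul_smul]
  refine ⟨⟨fun φ => ⟨φ.1.comp δ, fun k m => ?_⟩, fun χ => ⟨back χ, hback χ⟩, fun φ => ?_,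
    fun χ => ?_⟩⟩
  · show φ.1 (δ ((k : H).1 • m)) = (k : H).1 • φ.1 (δ m)
    rw [← φ.2]
    refine congrArg φ.1 (h.ext_apply fun x => ?_)
    rw [hδs, hδ, Pi.single_apply, (h.stab _).mp (k : H).2]
  · refine Subtype.ext (AddMonoidHom.ext fun ψ => ?_)
    show ∑ x, h.rep x • φ.1 (δ ((h.rep x)⁻¹ • ι ψ x)) = φ.1 ψ
    have h2 : ∀ (g : L.G) a, φ.1 (g • a) = g • φ.1 a := φ.2
    simp only [← h2, ← map_sum]
    refine congrArg φ.1 (h.ext_apply fun y => ?_)
    simp only [map_sum, Finset.sum_apply, hδs, h.rep_smul, smul_inv_smul, Finset.sum_ite_eq,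
      Finset.mem_univ, if_true]
  · refine Subtype.ext (AddMonoidHom.ext fun m => ?_)
    show ∑ x, h.rep x • χ.1 ((h.rep x)⁻¹ • ι (δ m) x) = χ.1 m
    rw [Finset.sum_eq_single x₀ (fun x _ hx => by
        rw [hδ, Pi.single_eq_of_ne hx, smul_zero, map_zero, smul_zero])
      (fun h' => absurd (Finset.mem_univ _) h'), hδ, Pi.single_eq_same, h.rep_base, inv_one,
      one_smul, one_smul]

theorem card_eq [Finite X] : Nat.card P = Nat.card M ^ Nat.card X := by
  rw [Nat.card_congr ι.toEquiv, Nat.card_fun]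

theorem card_point : Nat.card X = H.index := by
  rw [Subgroup.index_eq_card]
  refine (Nat.card_congr (Equiv.ofBijective (Quotient.lift (fun g : L.G => g • x₀) ?_) ⟨?_, ?_⟩)).symm
  · intro a b hab
    have h1 := (h.stab _).mp (QuotientGroup.leftRel_apply.mp hab)
    rw [mul_smul, inv_smul_eq_iff] at h1
    exact h1.symm
  · rintro ⟨a⟩ ⟨b⟩ hab
    refine QuotientGroup.eq.mpr ((h.stab _).mpr ?_)
    rw [mul_smul, inv_smul_eq_iff]
    exact hab.symm
  · intro x
    obtain ⟨g, rfl⟩ := h.trans x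
    exact ⟨QuotientGroup.mk g, rfl⟩

end IsInd

end Fermat.Agent.GD
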