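import Fermat.Agent.GD.GW.Lift
import Fermat.Agent.GD.Global.Basic.Shapiro
import Fermat.Agent.GD.Global.Basic
import Fermat.Agent.GD.Global.First

/-!
# Extensions split at all places of a big set of primes
-/

set_option autoImplicit false
set_option linter.style.haveILetI false

noncomputable section

namespace Fermat.Agent.GD

open Fermat.Agent.Galois (GQ)

local notation "ℚb" => AlgebraicClosure ℚ

variable {p : ℕ} [hpf : Fact p.Prime] {T : Finset Nat.Primes}

/-- An automorphism as an element of the group of `T`. -/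
def lt (T : Finset Nat.Primes) (g : GQ) : (LT T).G := g

theorem evalAt_lt (v : Place) (g σ : GQ) (f : Additive (idele T)) :
    evalAt v g (lt T σ • f) = evalAt v (g * σ) f := rfl

/-- A cyclic extension of degree `p`, split at all places over `T`, does not exist when the classes
are carried by the places over `T`. -/
theorem false_of_split_at_T (hp2 : p ≠ 2) {N : Subgroup GQ} (hN : (LT T).IsLevel N) (hbig : IsBig T N)
    (H H' : Subgroup GQ) (hH' : (LT T).IsOpen H') (hNH : N ≤ H) (hle : H' ≤ H)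
    (hn : (H'.subgroupOf H).Normal) (hidx : (H'.subgroupOf H).index = p) (hμ : FixesMu p H)
    (hsplit : ∀ v ∈ placesOf T, ∀ g : GQ, ∀ h : GQ, h ∈ H → g * h * g⁻¹ ∈ decomp v → h ∈ H') :
    False := by
  classical
  refine (first_inequality p T hp2 H H' hH' hle hn hidx hμ).1 (eq_top_iff.mpr fun c _ => ?_)
  have hfix' : ∀ {F : Additive (idele T)}, (∀ h : (LT T).G, h ∈ (show Subgroup (LT T).G from H) → h • F = F) →
      ∀ σ : GQ, σ ∈ H → lt T σ • F = F := fun h σ hσ => h _ hσ
  obtain ⟨f, hf, hfc, hfu⟩ := exists_unit_lift hN hbig H hNH c.1 c.2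
  refine AddSubgroup.subset_closure ?_
  let S : Place → GQ → Prop := fun v g =>
    ∃ d : decomp v, ∃ k : GQ, k ∈ H' ∧ g = (d : GQ) * dRep (decomp v) H g * k
  have hSd : ∀ v (d : GQ) (_ : d ∈ decomp v) g, S v (d * g) ↔ S v g := fun v d hd g => by
    have hr : dRep (decomp v) H (d * g) = dRep (decomp v) H g := by
      simpa using dRep_congr (D := decomp v) (H := H) g ⟨d, hd⟩ 1
    constructor
    · rintro ⟨d', k, hk, h⟩
      refine ⟨⟨d, hd⟩⁻¹ * d', k, hk, ?_⟩
      rw [hr] at h
      rw [Subgroup.coe_mul, Subgroup.coe_inv, mul_assoc, mul_assoc, ← mul_assoc (d' : GQ), ← h,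
        inv_mul_cancel_left]
    · rintro ⟨d', k, hk, h⟩
      refine ⟨⟨d, hd⟩ * d', k, hk, ?_⟩
      rw [hr, Subgroup.coe_mul]
      conv_lhs => rw [h]
      simp only [mul_assoc]
  have hSk : ∀ v g (k : GQ) (_ : k ∈ H'), S v (g * k) ↔ S v g := fun v g k hk => by
    have hr : dRep (decomp v) H (g * k) = dRep (decomp v) H g := by
      simpa using dRep_congr (D := decomp v) (H := H) g 1 ⟨k, hle hk⟩
    constructor
    · rintro ⟨d', k', hk', h⟩
      refine ⟨d', k' * k⁻¹, H'.mul_mem hk' (H'.inv_mem hk), ?_⟩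
      rw [hr] at h
      rw [← mul_assoc, ← h, mul_inv_cancel_right]
    · rintro ⟨d', k', hk', h⟩
      refine ⟨d', k' * k, H'.mul_mem hk' hk, ?_⟩
      rw [hr, ← mul_assoc, ← h]
  let Y : Place → GQ → Additive ℚbˣ := fun v g =>
    if v ∈ placesOf T ∧ S v g then evalAt v g f else 0
  have hYm : (fun v g => (Y v g).toMul) ∈ idele T := by
    refine ⟨fun v d hd g => ?_, ?_, T.finite_toSet.subset fun q ⟨g, hg⟩ => ?_⟩
    · show (Y v (d * g)).toMul = d • (Y v g).toMul
      simp only [Y, hSd v d hd g]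
      split_ifs with h
      · rw [evalAt_decomp v hd]; rfl
      · exact (smul_one d).symm
    · obtain ⟨N₁, hN₁, hle₁⟩ := hH'
      refine ⟨N₁, hN₁, fun v g s hs => ?_⟩
      show (Y v (g * s)).toMul = (Y v g).toMul
      simp only [Y, hSk v g s (hle₁ hs)]
      have h1 : evalAt v (g * s) f = evalAt v g f := by
        rw [← evalAt_lt v g s f, hfix' hf s (hle (hle₁ hs))]
      rw [h1]
    · by_contra hq
      change ¬ q ∈ T at hq
      simp only [Y, mem_placesOf_some, hq, false_and, if_false] at hg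
      exact hg (one_mem _)
  let y : Additive (idele T) := Additive.ofMul ⟨_, hYm⟩
  have hy : ∀ v g, evalAt v g y = Y v g := fun v g => rfl
  have hyH' : ∀ h ∈ H', lt T h • y = y := fun h hh => idele_ext fun v g => by
    rw [evalAt_lt, hy, hy]
    simp only [Y, hSk v g h hh]
    rw [← evalAt_lt v g h f, hfix' hf h (hle hh)]
  refine ⟨classHom T y, fun h hh =>
    (classHom_smul (T := T) h y).symm.trans (congrArg (classHom T) (hyH' h hh)), ?_⟩
  haveI : Finite (H ⧸ H'.subgroupOf H) := Nat.finite_of_card_ne_zero (by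
    show (H'.subgroupOf H).index ≠ 0
    rw [hidx]; exact hpf.out.ne_zero)
  haveI := Fintype.ofFinite (H ⧸ H'.subgroupOf H)
  show _ = ∑ᶠ s : H ⧸ H'.subgroupOf H, lt T ((s.out : H) : GQ) • classHom T y
  rw [finsum_eq_sum_of_fintype]
  show _ = ∑ s : H ⧸ H'.subgroupOf H, lt T ((s.out : H) : GQ) • classHom T y
  rw [← hfc, Finset.sum_congr rfl fun (s : H ⧸ H'.subgroupOf H) _ =>
    (classHom_smul (T := T) (lt T ((s.out : H) : GQ)) y).symm]
  rw [← map_sum, ← sub_eq_zero, ← map_sub]
  have heval : ∀ v g, evalAt v g (∑ s : H ⧸ H'.subgroupOf H, lt T ((s.out : H) : GQ) • y) =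
      ∑ s : H ⧸ H'.subgroupOf H, Y v (g * ((s.out : H) : GQ)) := fun v g => by
    rw [map_sum]
    rfl
  refine classHom_eq_zero_of 0 hN (fun s _ => smul_zero s) (fun v hv g => ?_) ?_
    (fun q _ g => by rw [toMul_zero, smul_one]; exact one_mem _)
  · rw [smul_zero, map_sub, heval]
    obtain ⟨d, k, hg⟩ := exists_eq_dRep (D := decomp v) H g
    have hiff : ∀ s : H ⧸ H'.subgroupOf H,
        S v (g * ((s.out : H) : GQ)) ↔ s = (QuotientGroup.mk (k⁻¹ : H) : H ⧸ H'.subgroupOf H) := by
      intro s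
      rw [← QuotientGroup.out_eq' s, QuotientGroup.out_eq' s]
      have hr : dRep (decomp v) H (g * ((s.out : H) : GQ)) = dRep (decomp v) H g := by
        simpa using dRep_congr (D := decomp v) (H := H) g 1 s.out
      have e : g * ((s.out : H) : GQ) =
          (d : GQ) * dRep (decomp v) H g * ((k : GQ) * ((s.out : H) : GQ)) := by
        rw [← mul_assoc, ← hg]
      constructor
      · rintro ⟨d', k', hk', h⟩
        rw [hr, e] at h
        rw [← QuotientGroup.out_eq' s]
        refine QuotientGroup.eq.mpr (Subgroup.mem_subgroupOf.mpr ?_)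
        have hks : ((k : GQ) * ((s.out : H) : GQ)) * k'⁻¹ =
            (dRep (decomp v) H g)⁻¹ * ((d⁻¹ * d' : decomp v) : GQ) * dRep (decomp v) H g := by
          rw [Subgroup.coe_mul, Subgroup.coe_inv]
          calc _ = (dRep (decomp v) H g)⁻¹ * (d : GQ)⁻¹ *
                ((d : GQ) * dRep (decomp v) H g * ((k : GQ) * ((s.out : H) : GQ))) * k'⁻¹ := by group
            _ = _ := by rw [h]; group
        have h1 : ((k : GQ) * ((s.out : H) : GQ)) * k'⁻¹ ∈ H' :=
          hsplit v hv (dRep (decomp v) H g) _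
            (H.mul_mem (H.mul_mem k.2 (s.out : H).2) (H.inv_mem (hle hk')))
            (by rw [hks, mul_assoc, mul_assoc, mul_inv_cancel, mul_one, mul_inv_cancel_left]
                exact (d⁻¹ * d' : decomp v).2)
        have h2 := H'.inv_mem (H'.mul_mem h1 hk')
        rw [inv_mul_cancel_right] at h2
        simpa using h2
      · intro hs
        rw [← QuotientGroup.out_eq' s] at hs
        have h1 : (((s.out : H)⁻¹ * k⁻¹ : H) : GQ) ∈ H' :=
          Subgroup.mem_subgroupOf.mp (QuotientGroup.eq.mp hs)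
        refine ⟨d, _, H'.inv_mem h1, ?_⟩
        rw [hr, e]
        simp [mul_assoc]
    rw [Finset.sum_eq_single (QuotientGroup.mk (k⁻¹ : H) : H ⧸ H'.subgroupOf H)
      (fun s _ hs => if_neg fun h => hs ((hiff s).mp h.2)) (fun h => absurd (Finset.mem_univ _) h)]
    show _ - (if _ then _ else (0 : Additive ℚbˣ)) = 0
    rw [if_pos ⟨hv, (hiff _).mpr rfl⟩, ← evalAt_lt v g _ f, hfix' hf _ (SetLike.coe_mem _), sub_self]
  · intro q hq g
    show (f - _).toMul.1 (some q) g ∈ _
    rw [toMul_sub, div_eq_mul_inv]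
    refine mul_mem (hfu q hq g) (inv_mem ?_)
    have h0 : evalAt (some q) g (∑ s : H ⧸ H'.subgroupOf H, lt T ((s.out : H) : GQ) • y) = 0 := by
      rw [heval]
      exact Finset.sum_eq_zero fun s _ => if_neg fun h => hq (mem_placesOf_some.mp h.1)
    have h1 := congrArg Additive.toMul h0
    change _ = (1 : ℚbˣ) at h1
    rw [show (∑ s : H ⧸ H'.subgroupOf H, lt T ((s.out : H) : GQ) • y).toMul.1 (some q) g = 1 from h1]
    exact one_mem _

/-- The stabiliser of a root of a fixed element. -/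
def rootStab (H : Subgroup GQ) (z : ℚbˣ) : Subgroup GQ :=
  H ⊓ MulAction.stabilizer GQ z

/-- A unit away from `T` which is locally a power at all places over `T` is a power. -/
theorem sUnit_mem_powers_of_locally (hp2 : p ≠ 2) (hT : (⟨p, Fact.out⟩ : Nat.Primes) ∈ T)
    {N : Subgroup GQ} (hN : (LT T).IsLevel N) (hbig : IsBig T N) (H : Subgroup GQ)
    (hNH : N ≤ H) (hμ : FixesMu p H) (x : sUnits T H)
    (hloc : ∀ v ∈ placesOf T, ∀ g : GQ, ∃ z : ℚbˣ, z ^ p = (x : ℚbˣ) ∧
      ∀ h : GQ, h ∈ H → g * h * g⁻¹ ∈ decomp v → h • z = z) :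
    x ∈ powers p (sUnits T H) := by
  classical
  obtain ⟨z₀, hz₀, -⟩ := hloc none mem_placesOf_none 1
  by_cases hfix : ∀ h : GQ, h ∈ H → h • z₀ = z₀
  · refine ⟨⟨z₀, hfix, fun q hq g => ?_⟩, Subtype.ext hz₀⟩
    have h1 := isTUnit_of_pow (p := p) (x := Additive.ofMul z₀) (T := T) (fun q hq g => by
      show g • (z₀ ^ p) ∈ _
      rw [hz₀]
      exact x.2.2 q hq g) q hq g
    exact h1
  push Not at hfix
  obtain ⟨h₀, hh₀, hne⟩ := hfix
  have hμu : ∀ h : GQ, h ∈ H → ∀ u : ℚbˣ, u ^ p = 1 → h • u = u := fun h hh u hu =>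
    Units.ext (hμ h hh u (by rw [← Units.val_pow_eq_pow_val, hu, Units.val_one]))
  -- the ratio is a character of `H`
  let χ : H →* ℚbˣ :=
    { toFun := fun h => (h : GQ) • z₀ / z₀
      map_one' := by rw [OneMemClass.coe_one, one_smul, div_self']
      map_mul' := fun a b => by
        have hb : ((b : GQ) • z₀ / z₀) ^ p = 1 := by
          rw [div_pow, ← smul_pow', hz₀]
          exact div_eq_one.mpr (x.2.1 _ b.2)
        have h1 := hμu a a.2 _ hb
        rw [smul_div'] at h1
        show ((a : GQ) * (b : GQ)) • z₀ / z₀ = _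
        rw [mul_smul, ← h1, div_mul_div_cancel']  }
  have hker : χ.ker = (rootStab H z₀).subgroupOf H := by
    ext h
    rw [MonoidHom.mem_ker, Subgroup.mem_subgroupOf]
    show (h : GQ) • z₀ / z₀ = 1 ↔ _
    rw [div_eq_one]
    exact ⟨fun he => ⟨h.2, he⟩, fun he => he.2⟩
  have hn : ((rootStab H z₀).subgroupOf H).Normal := hker ▸ χ.normal_ker
  have hidx : ((rootStab H z₀).subgroupOf H).index = p := by
    haveI : NeZero p := ⟨hpf.out.ne_zero⟩
    rw [← hker, Subgroup.index_ker]
    have hle : χ.range ≤ rootsOfUnity p ℚb := by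
      rintro _ ⟨h, rfl⟩
      rw [mem_rootsOfUnity]
      show ((h : GQ) • z₀ / z₀) ^ p = 1
      rw [div_pow, ← smul_pow', hz₀]
      exact div_eq_one.mpr (x.2.1 _ h.2)
    have hcard : Nat.card (rootsOfUnity p ℚb) = p := HasEnoughRootsOfUnity.natCard_rootsOfUnity ℚb p
    haveI : Finite (rootsOfUnity p ℚb) := inferInstance
    rcases (Nat.dvd_prime hpf.out).mp (hcard ▸ Subgroup.card_dvd_of_le hle) with h | h
    · exfalso
      refine hne ?_
      have hbot := Subgroup.card_eq_one.mp h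
      have hm : χ ⟨h₀, hh₀⟩ ∈ χ.range := ⟨_, rfl⟩
      rw [hbot, Subgroup.mem_bot] at hm
      exact div_eq_one.mp hm
    · exact h
  have hopen : (LT T).IsOpen (rootStab H z₀) := by
    obtain ⟨N', hN', hfixN'⟩ := exists_level_root hT hN (x := (x : ℚbˣ))
      (fun s hs => x.2.1 s (hNH hs)) x.2.2 hz₀
    exact ⟨N ⊓ N', (LT T).inf N N' hN hN', fun s hs => ⟨hNH hs.1, hfixN' s hs.2⟩⟩
  refine (false_of_split_at_T hp2 hN hbig H (rootStab H z₀) hopen hNH inf_le_left hn hidx hμ ?_).elim
  intro v hv g h hh hd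
  obtain ⟨z, hz, hzfix⟩ := hloc v hv g
  have hu : (z₀ / z) ^ p = 1 := by rw [div_pow, hz₀, hz, div_self']
  refine ⟨hh, ?_⟩
  show h • z₀ = z₀
  rw [← div_mul_cancel z₀ z, smul_mul', hμu h hh _ hu, hzfix h hh hd]

/-- The stabilisers at infinity are trivial when the roots of unity of odd prime order are fixed. -/
theorem eq_one_of_fixesMu_arch (hp2 : p ≠ 2) {H : Subgroup GQ} (hμ : FixesMu p H) {g h : GQ}
    (hh : h ∈ H) (hd : g * h * g⁻¹ ∈ decomp none) : h = 1 := by
  haveI : NeZero p := ⟨hpf.out.ne_zero⟩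
  obtain ⟨n, hn⟩ := Subgroup.mem_zpowers_iff.mp hd
  have hn2 : complexConjugation ^ (2 : ℤ) = 1 := complexConjugation_sq
  rcases Int.even_or_odd' n with ⟨j, rfl | rfl⟩
  · rw [zpow_mul, hn2, one_zpow] at hn
    have h1 : g * h = g := by simpa using congrArg (· * g) hn.symm
    exact mul_eq_left.mp h1
  · exfalso
    rw [zpow_add, zpow_mul, hn2, one_zpow, one_mul, zpow_one] at hn
    obtain ⟨ζ, hζ⟩ := HasEnoughRootsOfUnity.exists_primitiveRoot ℚb p
    obtain ⟨i, -, hi⟩ := hζ.eq_pow_of_pow_eq_one (ξ := g⁻¹ ζ)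
      (by rw [← map_pow, hζ.pow_eq_one, map_one])
    have hfix : complexConjugation ζ = ζ := by
      rw [hn, AlgEquiv.mul_apply, AlgEquiv.mul_apply,
        hμ h hh (g⁻¹ ζ) (by rw [← map_pow, hζ.pow_eq_one, map_one])]
      exact AlgEquiv.apply_symm_apply g ζ
    set e := complexEmbedding with he
    have h1 : starRingEnd ℂ (e ζ) = e ζ := by
      rw [← complexEmbedding_complexConjugation, hfix]
    have h2 : (e ζ) ^ p = 1 := by rw [← map_pow, hζ.pow_eq_one, map_one]
    have h3 : e ζ * e ζ = 1 := by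
      show (e ζ : ℂ) * e ζ = 1
      have hn1 : ‖e ζ‖ = 1 := Complex.norm_eq_one_of_pow_eq_one h2 hpf.out.ne_zero
      nth_rewrite 2 [← h1]
      rw [Complex.mul_conj, Complex.normSq_eq_norm_sq, hn1]
      norm_num
    have h4 : ζ ^ 2 = 1 := e.injective (by rw [map_pow, map_one, sq]; exact h3)
    have h5 := Nat.le_of_dvd two_pos (hζ.dvd_of_pow_eq_one 2 h4)
    have h6 := hpf.out.two_le
    omega

end Fermat.Agent.GD
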